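import Mathlib.Algebra.Module.ZMod
import Mathlib.GroupTheory.FiniteAbelian.Basic
import Mathlib.GroupTheory.Index
import Mathlib.LinearAlgebra.Dimension.Finrank
import Mathlib.LinearAlgebra.Dimension.RankNullity
import Mathlib.LinearAlgebra.Dimension.Torsion.Finite
import Mathlib.Tactic

/-!
# Counting in abelian groups: `|A/pA| = p^rank * |A[p]|`, snake lemma counts
-/

set_option autoImplicit false

namespace Fermat.Agent.CFT.AbCount

section Transport

variable {A B : Type*} [AddCommGroup A] [AddCommGroup B]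

lemma index_range_nsmul_congr (e : A ≃+ B) (n : ℕ) :
    (nsmulAddMonoidHom n : A →+ A).range.index = (nsmulAddMonoidHom n : B →+ B).range.index := by
  have h : (nsmulAddMonoidHom n : A →+ A).range =
      (nsmulAddMonoidHom n : B →+ B).range.comap e.toAddMonoidHom := by
    ext x
    simp only [AddMonoidHom.mem_range, AddSubgroup.mem_comap, nsmulAddMonoidHom_apply]
    constructor
    · rintro ⟨y, rfl⟩
      exact ⟨e y, by simp⟩
    · rintro ⟨y, hy⟩
      refine ⟨e.symm y, ?_⟩
      apply e.injective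
      simpa using hy
  rw [h, AddSubgroup.index_comap_of_surjective _ e.surjective]

lemma card_ker_nsmul_congr (e : A ≃+ B) (n : ℕ) :
    Nat.card (nsmulAddMonoidHom n : A →+ A).ker = Nat.card (nsmulAddMonoidHom n : B →+ B).ker := by
  refine Nat.card_congr (e.toEquiv.subtypeEquiv fun x => ?_)
  change n • x = 0 ↔ n • e x = 0
  rw [← map_nsmul, EmbeddingLike.map_eq_zero_iff]

lemma index_range_nsmul_prod (n : ℕ) :
    (nsmulAddMonoidHom n : A × B →+ A × B).range.index =
      (nsmulAddMonoidHom n : A →+ A).range.index * (nsmulAddMonoidHom n : B →+ B).range.index := by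
  have h : (nsmulAddMonoidHom n : A × B →+ A × B).range =
      (nsmulAddMonoidHom n : A →+ A).range.prod (nsmulAddMonoidHom n : B →+ B).range := by
    ext ⟨x, y⟩
    simp only [AddMonoidHom.mem_range, AddSubgroup.mem_prod, nsmulAddMonoidHom_apply, Prod.smul_def,
      Prod.exists, Prod.mk.injEq]
    constructor
    · rintro ⟨a, b, ha, hb⟩
      exact ⟨⟨a, ha⟩, ⟨b, hb⟩⟩
    · rintro ⟨⟨a, ha⟩, ⟨b, hb⟩⟩
      exact ⟨a, b, ha, hb⟩
  rw [h, AddSubgroup.index_prod]

lemma card_ker_nsmul_prod (n : ℕ) :
    Nat.card (nsmulAddMonoidHom n : A × B →+ A × B).ker =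
      Nat.card (nsmulAddMonoidHom n : A →+ A).ker * Nat.card (nsmulAddMonoidHom n : B →+ B).ker := by
  rw [← Nat.card_prod]
  have h : (nsmulAddMonoidHom n : A × B →+ A × B).ker =
      (nsmulAddMonoidHom n : A →+ A).ker.prod (nsmulAddMonoidHom n : B →+ B).ker := by
    ext ⟨x, y⟩
    simp [AddMonoidHom.mem_ker, AddSubgroup.mem_prod]
  rw [h]
  exact Nat.card_congr (AddSubgroup.prodEquiv _ _).toEquiv

end Transport

lemma index_range_nsmul_of_finite {A : Type*} [AddCommGroup A] [Finite A] (n : ℕ) :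
    (nsmulAddMonoidHom n : A →+ A).range.index = Nat.card (nsmulAddMonoidHom n : A →+ A).ker := by
  have h1 := AddSubgroup.card_mul_index (nsmulAddMonoidHom n : A →+ A).range
  have h2 := AddSubgroup.card_mul_index (nsmulAddMonoidHom n : A →+ A).ker
  rw [AddSubgroup.index_ker] at h2
  have h3 : 0 < Nat.card (nsmulAddMonoidHom n : A →+ A).range := Nat.card_pos
  rw [mul_comm] at h2
  exact Nat.eq_of_mul_eq_mul_left h3 (h1.trans h2.symm)

lemma index_range_nsmul_free (m n : ℕ) (hn : n ≠ 0) :
    (nsmulAddMonoidHom n : (Fin m →₀ ℤ) →+ (Fin m →₀ ℤ)).range.index = n ^ m := by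
  have : NeZero n := ⟨hn⟩
  let φ : (Fin m →₀ ℤ) →+ (Fin m →₀ ZMod n) := Finsupp.mapRange.addMonoidHom (Int.castAddHom (ZMod n))
  have hφ : Function.Surjective φ :=
    Finsupp.mapRange_surjective _ (map_zero _) (ZMod.intCast_surjective)
  have hker : φ.ker = (nsmulAddMonoidHom n : (Fin m →₀ ℤ) →+ (Fin m →₀ ℤ)).range := by
    ext x
    simp only [AddMonoidHom.mem_ker, AddMonoidHom.mem_range, nsmulAddMonoidHom_apply]
    constructor
    · intro h
      have h1 : ∀ i, (n : ℤ) ∣ x i := fun i => by
        have := DFunLike.congr_fun h i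
        rw [← ZMod.intCast_zmod_eq_zero_iff_dvd]
        simpa [φ] using this
      choose y hy using h1
      refine ⟨Finsupp.equivFunOnFinite.symm y, ?_⟩
      ext i
      simp [hy i]
    · rintro ⟨y, rfl⟩
      ext i
      simp [φ]
  rw [← hker, AddSubgroup.index_ker, AddMonoidHom.range_eq_top.mpr hφ, AddSubgroup.card_top,
    Nat.card_congr (Finsupp.equivFunOnFinite : (Fin m →₀ ZMod n) ≃ (Fin m → ZMod n))]
  simp

lemma card_ker_nsmul_free (m n : ℕ) (hn : n ≠ 0) :
    Nat.card (nsmulAddMonoidHom n : (Fin m →₀ ℤ) →+ (Fin m →₀ ℤ)).ker = 1 := by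
  rw [Nat.card_eq_one_iff_unique]
  refine ⟨⟨fun a b => Subtype.ext ?_⟩, ⟨0⟩⟩
  have key : ∀ x : (nsmulAddMonoidHom n : (Fin m →₀ ℤ) →+ (Fin m →₀ ℤ)).ker,
      (x : Fin m →₀ ℤ) = 0 := by
    rintro ⟨x, hx⟩
    rw [AddMonoidHom.mem_ker, nsmulAddMonoidHom_apply] at hx
    exact (smul_eq_zero_iff_right hn).mp hx
  rw [key a, key b]

lemma finrank_eq_of_surjective {M N : Type*} [AddCommGroup M] [AddCommGroup N]
    [Module.Finite ℤ M] (f : M →ₗ[ℤ] N) (hf : Function.Surjective f) :
    Module.finrank ℤ M = Module.finrank ℤ N + Module.finrank ℤ (LinearMap.ker f) := by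
  rw [← Submodule.finrank_quotient_add_finrank (LinearMap.ker f),
    (LinearMap.quotKerEquivOfSurjective f hf).finrank_eq]

lemma finrank_eq_zero_of_finite {M : Type*} [AddCommGroup M] [Finite M] :
    Module.finrank ℤ M = 0 := by
  have : Module.Finite ℤ M := inferInstance
  rw [Module.finrank_eq_zero_iff_isTorsion]
  intro x
  refine ⟨⟨(addOrderOf x : ℤ), ?_⟩, ?_⟩
  · rw [mem_nonZeroDivisors_iff_ne_zero]
    exact_mod_cast (addOrderOf_pos x).ne'
  · change ((addOrderOf x : ℤ)) • x = 0
    rw [natCast_zsmul, addOrderOf_nsmul_eq_zero]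

/-- For a finitely generated abelian group, `|A/nA| = n^rank * |A[n]|`. -/
theorem index_range_nsmul {A : Type*} [AddCommGroup A] [Module.Finite ℤ A] (n : ℕ) (hn : n ≠ 0) :
    (nsmulAddMonoidHom n : A →+ A).range.index =
      n ^ Module.finrank ℤ A * Nat.card (nsmulAddMonoidHom n : A →+ A).ker := by
  have : AddGroup.FG A := Module.Finite.iff_addGroup_fg.mp inferInstance
  obtain ⟨m, ι, _, q, hq, e, ⟨f⟩⟩ := AddCommGroup.equiv_free_prod_directSum_zmod A
  have : ∀ i, NeZero (q i ^ e i) := fun i => ⟨pow_ne_zero _ (hq i).ne_zero⟩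
  have hfin : Finite (DirectSum ι fun i => ZMod (q i ^ e i)) := by
    classical
    exact Finite.of_equiv _ (DirectSum.addEquivProd (fun i => ZMod (q i ^ e i))).symm.toEquiv
  have hrank : Module.finrank ℤ A = m := by
    rw [(f.toIntLinearEquiv).finrank_eq]
    have h3 := finrank_eq_of_surjective
      (LinearMap.fst ℤ (Fin m →₀ ℤ) (DirectSum ι fun i => ZMod (q i ^ e i))) Prod.fst_surjective
    have h4 : Finite (LinearMap.ker
        (LinearMap.fst ℤ (Fin m →₀ ℤ) (DirectSum ι fun i => ZMod (q i ^ e i)))) := by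
      refine Finite.of_injective (fun x => x.1.2) ?_
      rintro ⟨⟨a, b⟩, h⟩ ⟨⟨c, d⟩, h'⟩ hbd
      rw [LinearMap.mem_ker, LinearMap.fst_apply] at h h'
      simp only at h h' hbd
      subst h h' hbd
      rfl
    rw [h3, finrank_eq_zero_of_finite (M := LinearMap.ker
        (LinearMap.fst ℤ (Fin m →₀ ℤ) (DirectSum ι fun i => ZMod (q i ^ e i)))),
      Module.finrank_finsupp_self, Fintype.card_fin, add_zero]
  rw [index_range_nsmul_congr f, card_ker_nsmul_congr f, index_range_nsmul_prod,
    card_ker_nsmul_prod, index_range_nsmul_free _ _ hn, card_ker_nsmul_free _ _ hn, one_mul,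
    index_range_nsmul_of_finite, hrank]

section Multiplicative

/-- Multiplicative version: `|A/A^n| = n^rank * |A[n]|`. -/
theorem index_range_pow {A : Type*} [CommGroup A] [Module.Finite ℤ (Additive A)] (n : ℕ)
    (hn : n ≠ 0) :
    (powMonoidHom n : A →* A).range.index =
      n ^ Module.finrank ℤ (Additive A) * Nat.card (powMonoidHom n : A →* A).ker :=
  index_range_nsmul (A := Additive A) n hn

lemma index_range_pow_of_finite {A : Type*} [CommGroup A] [Finite A] (n : ℕ) :
    (powMonoidHom n : A →* A).range.index = Nat.card (powMonoidHom n : A →* A).ker :=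
  index_range_nsmul_of_finite (A := Additive A) n

lemma index_range_pow_congr {A B : Type*} [CommGroup A] [CommGroup B] (e : A ≃* B) (n : ℕ) :
    (powMonoidHom n : A →* A).range.index = (powMonoidHom n : B →* B).range.index :=
  index_range_nsmul_congr (A := Additive A) (B := Additive B) (MulEquiv.toAdditive e) n

lemma card_ker_pow_congr {A B : Type*} [CommGroup A] [CommGroup B] (e : A ≃* B) (n : ℕ) :
    Nat.card (powMonoidHom n : A →* A).ker = Nat.card (powMonoidHom n : B →* B).ker :=
  card_ker_nsmul_congr (A := Additive A) (B := Additive B) (MulEquiv.toAdditive e) n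

section Snake

variable {A D : Type*} [CommGroup A] [CommGroup D] (f : A →* D) (n : ℕ)

/-- The elements of `A` whose image in `D` is an `n`-th power. -/
def selSubgroup : Subgroup A := (powMonoidHom n : D →* D).range.comap f

lemma mem_selSubgroup (a : A) : a ∈ selSubgroup f n ↔ ∃ d : D, d ^ n = f a := by
  rw [selSubgroup, Subgroup.mem_comap, MonoidHom.mem_range]
  rfl

lemma ker_le_selSubgroup : f.ker ≤ selSubgroup f n := by
  intro a ha
  rw [mem_selSubgroup]
  exact ⟨1, by rw [one_pow, (MonoidHom.mem_ker.mp ha)]⟩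

lemma range_pow_le_selSubgroup : (powMonoidHom n : A →* A).range ≤ selSubgroup f n := by
  rintro _ ⟨a, rfl⟩
  rw [mem_selSubgroup]
  exact ⟨f a, by simp⟩

variable (hD : ∀ d : D, d ^ n = 1 → d = 1)

include hD

lemma range_pow_subgroupOf_ker :
    (powMonoidHom n : A →* A).range.subgroupOf f.ker =
      (powMonoidHom n : f.ker →* f.ker).range := by
  ext ⟨x, hx⟩
  rw [Subgroup.mem_subgroupOf, MonoidHom.mem_range, MonoidHom.mem_range]
  constructor
  · rintro ⟨a, ha⟩
    have ha' : a ^ n = x := ha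
    refine ⟨⟨a, ?_⟩, Subtype.ext ha'⟩
    rw [MonoidHom.mem_ker]
    apply hD
    rw [← map_pow, ha']
    exact hx
  · rintro ⟨a, ha⟩
    exact ⟨a, congrArg Subtype.val ha⟩

/-- The snake lemma count:
`(V : A^n) = (U : U^n) * |C[n]|`, `U = ker f`, `C = coker f`, `V = f⁻¹(D^n)`. -/
theorem relIndex_selSubgroup :
    (powMonoidHom n : A →* A).range.relIndex (selSubgroup f n) =
      (powMonoidHom n : f.ker →* f.ker).range.index *
        Nat.card (powMonoidHom n : (D ⧸ f.range) →* (D ⧸ f.range)).ker := by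
  have hinj : Function.Injective (powMonoidHom n : D →* D) := by
    rw [injective_iff_map_eq_one]
    exact hD
  set P := (powMonoidHom n : A →* A).range with hP
  set V := selSubgroup f n with hV
  have hPV : P ≤ V := range_pow_le_selSubgroup f n
  have hUV : f.ker ≤ V := ker_le_selSubgroup f n
  rw [← Subgroup.relIndex_mul_relIndex P (P ⊔ f.ker) V le_sup_left (sup_le hPV hUV)]
  congr 1
  · rw [Subgroup.relIndex_sup_left, Subgroup.relIndex,
      range_pow_subgroupOf_ker f n hD]
  · -- the map V → D/im f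
    let e := MonoidHom.ofInjective hinj
    let g0 : V →* (powMonoidHom n : D →* D).range :=
      (f.comp V.subtype).codRestrict _ (fun a => a.2)
    let g : V →* D := e.symm.toMonoidHom.comp g0
    have hg : ∀ a : V, (g a) ^ n = f a := by
      intro a
      have h1 : e (g a) = g0 a := by simp [g]
      have h2 := congrArg Subtype.val h1
      exact h2
    let h : V →* D ⧸ f.range := (QuotientGroup.mk' f.range).comp g
    have hker : h.ker = (P ⊔ f.ker).subgroupOf V := by
      ext a
      rw [MonoidHom.mem_ker, Subgroup.mem_subgroupOf]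
      change (QuotientGroup.mk (g a) : D ⧸ f.range) = 1 ↔ _
      rw [QuotientGroup.eq_one_iff, MonoidHom.mem_range]
      constructor
      · rintro ⟨b, hb⟩
        rw [Subgroup.mem_sup]
        refine ⟨b ^ n, ⟨b, rfl⟩, (b ^ n)⁻¹ * a, ?_, by simp⟩
        rw [MonoidHom.mem_ker, map_mul, map_inv, map_pow, hb, hg, inv_mul_cancel]
      · intro ha
        rw [Subgroup.mem_sup] at ha
        obtain ⟨_, ⟨b, rfl⟩, u, hu, hbu⟩ := ha
        refine ⟨b, hinj ?_⟩
        change (f b) ^ n = (g a) ^ n
        rw [hg, ← hbu, map_mul, (MonoidHom.mem_ker.mp hu), mul_one]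
        simp
    have hrange : h.range = (powMonoidHom n : (D ⧸ f.range) →* (D ⧸ f.range)).ker := by
      ext c
      rw [MonoidHom.mem_range, MonoidHom.mem_ker]
      constructor
      · rintro ⟨a, rfl⟩
        change (QuotientGroup.mk (g a) : D ⧸ f.range) ^ n = 1
        rw [← QuotientGroup.mk_pow, QuotientGroup.eq_one_iff, hg]
        exact ⟨a, rfl⟩
      · intro hc
        obtain ⟨d, rfl⟩ := QuotientGroup.mk_surjective c
        change (QuotientGroup.mk d : D ⧸ f.range) ^ n = 1 at hc
        rw [← QuotientGroup.mk_pow, QuotientGroup.eq_one_iff] at hc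
        obtain ⟨a, ha⟩ := hc
        have haV : a ∈ V := (mem_selSubgroup f n a).mpr ⟨d, ha.symm⟩
        refine ⟨⟨a, haV⟩, ?_⟩
        change (QuotientGroup.mk (g ⟨a, haV⟩) : D ⧸ f.range) = QuotientGroup.mk d
        congr 1
        apply hinj
        change (g ⟨a, haV⟩) ^ n = d ^ n
        rw [hg]
        exact ha
    rw [Subgroup.relIndex, ← hker, Subgroup.index_ker, hrange]

end Snake

end Multiplicative

end Fermat.Agent.CFT.AbCount
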