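import Mathlib.RingTheory.DedekindDomain.SInteger
import Mathlib.RingTheory.DedekindDomain.SelmerGroup
import Mathlib.RingTheory.DedekindDomain.Factorization
import Mathlib.NumberTheory.NumberField.Units.DirichletTheorem
import Mathlib.NumberTheory.NumberField.ClassNumber
import Mathlib.Algebra.Module.ZMod
import Mathlib.GroupTheory.FiniteAbelian.Basic
import Mathlib.Tactic
import Fermat.Agent.CFT.AbCount

/-!
# S-units of number fields
-/

set_option autoImplicit false

namespace Fermat.Agent.CFT.SUnits

open IsDedekindDomain NumberField WithZero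
open scoped nonZeroDivisors

section Dedekind

variable {R : Type*} [CommRing R] [IsDedekindDomain R] (K : Type*) [Field K] [Algebra R K]
  [IsFractionRing R K]

variable {K} in
/-- The normalised additive valuation at `v`. -/
noncomputable def ord (v : HeightOneSpectrum R) (x : Kˣ) : ℤ :=
  - Multiplicative.toAdd (v.valuationOfNeZero x)

@[simp] lemma ord_one (v : HeightOneSpectrum R) : ord v (1 : Kˣ) = 0 := by
  simp [ord]

@[simp] lemma ord_mul (v : HeightOneSpectrum R) (x y : Kˣ) : ord v (x * y) = ord v x + ord v y := by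
  simp only [ord, map_mul, toAdd_mul]
  ring

@[simp] lemma ord_inv (v : HeightOneSpectrum R) (x : Kˣ) : ord v x⁻¹ = - ord v x := by
  simp only [ord, map_inv, toAdd_inv]

@[simp] lemma ord_pow (v : HeightOneSpectrum R) (x : Kˣ) (n : ℕ) :
    ord v (x ^ n) = n * ord v x := by
  simp only [ord, map_pow, toAdd_pow]
  simp

lemma ord_div (v : HeightOneSpectrum R) (x y : Kˣ) : ord v (x / y) = ord v x - ord v y := by
  rw [div_eq_mul_inv, ord_mul, ord_inv, sub_eq_add_neg]

lemma valuation_eq_exp_neg_ord (v : HeightOneSpectrum R) (x : Kˣ) :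
    v.valuation K (x : K) = WithZero.exp (- ord v x) := by
  rw [← HeightOneSpectrum.valuationOfNeZero_eq, ord, neg_neg]
  rfl

lemma ord_eq_zero_iff (v : HeightOneSpectrum R) (x : Kˣ) :
    ord v x = 0 ↔ v.valuation K (x : K) = 1 := by
  rw [valuation_eq_exp_neg_ord, ← WithZero.exp_zero, WithZero.exp_inj, neg_eq_zero]

lemma ord_nonneg_iff (v : HeightOneSpectrum R) (x : Kˣ) :
    0 ≤ ord v x ↔ v.valuation K (x : K) ≤ 1 := by
  rw [valuation_eq_exp_neg_ord, ← WithZero.exp_zero, WithZero.exp_le_exp, neg_nonpos]

lemma count_spanSingleton_algebraMap (v : HeightOneSpectrum R) {r : R} (hr : r ≠ 0) :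
    v.valuation K (algebraMap R K r) = WithZero.exp
      (- FractionalIdeal.count K v (FractionalIdeal.spanSingleton R⁰ (algebraMap R K r))) := by
  classical
  rw [HeightOneSpectrum.valuation_of_algebraMap, HeightOneSpectrum.intValuation_if_neg v hr,
    ← FractionalIdeal.coeIdeal_span_singleton, FractionalIdeal.count_coe]
  rwa [Ne, Ideal.zero_eq_bot, Ideal.span_singleton_eq_bot]

lemma ord_eq_count (v : HeightOneSpectrum R) (x : Kˣ) :
    ord v x = FractionalIdeal.count K v (FractionalIdeal.spanSingleton R⁰ (x : K)) := by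
  classical
  obtain ⟨⟨r, s⟩, hrs⟩ := IsLocalization.surj R⁰ (x : K)
  have hs : (s : R) ≠ 0 := nonZeroDivisors.coe_ne_zero s
  have hsK : algebraMap R K s ≠ 0 := IsLocalization.to_map_ne_zero_of_mem_nonZeroDivisors K le_rfl s.2
  have hrK : algebraMap R K r ≠ 0 := by
    rw [← hrs]
    exact mul_ne_zero x.ne_zero hsK
  have hr : r ≠ 0 := by
    rintro rfl
    exact hrK (map_zero _)
  have h1 := congrArg (v.valuation K) hrs
  simp only [map_mul] at h1
  rw [valuation_eq_exp_neg_ord, count_spanSingleton_algebraMap K v hs,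
    count_spanSingleton_algebraMap K v hr, ← WithZero.exp_add, WithZero.exp_inj] at h1
  have h2 : FractionalIdeal.count K v (FractionalIdeal.spanSingleton R⁰ (x : K)) +
      FractionalIdeal.count K v (FractionalIdeal.spanSingleton R⁰ (algebraMap R K s)) =
      FractionalIdeal.count K v (FractionalIdeal.spanSingleton R⁰ (algebraMap R K r)) := by
    rw [← hrs, ← FractionalIdeal.spanSingleton_mul_spanSingleton, FractionalIdeal.count_mul]
    · rw [FractionalIdeal.spanSingleton_ne_zero_iff]
      exact x.ne_zero
    · rw [FractionalIdeal.spanSingleton_ne_zero_iff]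
      exact hsK
  linarith

/-- only finitely many places have nonzero valuation. -/
lemma finite_ord_ne_zero (x : Kˣ) : {v : HeightOneSpectrum R | ord v x ≠ 0}.Finite := by
  have h := FractionalIdeal.finite_factors (K := K) (FractionalIdeal.spanSingleton R⁰ (x : K))
  rw [Filter.eventually_cofinite] at h
  simpa only [ord_eq_count] using h

variable {K} in
/-- The divisor of a nonzero element. -/
noncomputable def div (x : Kˣ) : HeightOneSpectrum R →₀ ℤ :=
  Finsupp.ofSupportFinite (fun v => ord v x) (finite_ord_ne_zero K x)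

@[simp] lemma div_apply (x : Kˣ) (v : HeightOneSpectrum R) : div x v = ord v x := rfl

/-- The fractional ideal with given divisor. -/
noncomputable def idealOf (D : HeightOneSpectrum R →₀ ℤ) : (FractionalIdeal R⁰ K)ˣ :=
  D.prod fun v n => (Units.mk0 (v.asIdeal : FractionalIdeal R⁰ K)
    (FractionalIdeal.coeIdeal_ne_zero.mpr v.ne_bot)) ^ n

lemma coe_idealOf (D : HeightOneSpectrum R →₀ ℤ) : (idealOf K D : FractionalIdeal R⁰ K) =
    D.prod fun v n => (v.asIdeal : FractionalIdeal R⁰ K) ^ n := by
  rw [idealOf, Finsupp.prod, Units.coe_prod, Finsupp.prod]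
  simp

@[simp] lemma count_idealOf (D : HeightOneSpectrum R →₀ ℤ) (v : HeightOneSpectrum R) :
    FractionalIdeal.count K v (idealOf K D : FractionalIdeal R⁰ K) = D v := by
  rw [coe_idealOf, FractionalIdeal.count_finsuppProd]

lemma idealOf_add (D E : HeightOneSpectrum R →₀ ℤ) :
    idealOf K (D + E) = idealOf K D * idealOf K E := by
  classical
  rw [idealOf, Finsupp.prod_add_index]
  · rfl
  · intros; exact zpow_zero _
  · intros; exact zpow_add _ _ _

@[simp] lemma idealOf_zero : idealOf K (0 : HeightOneSpectrum R →₀ ℤ) = 1 := by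
  rw [idealOf, Finsupp.prod_zero_index]

lemma idealOf_zsmul (n : ℤ) (D : HeightOneSpectrum R →₀ ℤ) :
    idealOf K (n • D) = idealOf K D ^ n := by
  let f : Multiplicative (HeightOneSpectrum R →₀ ℤ) →* (FractionalIdeal R⁰ K)ˣ :=
    { toFun := fun D => idealOf K D.toAdd
      map_one' := idealOf_zero K
      map_mul' := fun D E => idealOf_add K _ _ }
  exact map_zpow f (Multiplicative.ofAdd D) n

lemma eq_of_count_eq {I J : FractionalIdeal R⁰ K} (hI : I ≠ 0) (hJ : J ≠ 0)
    (h : ∀ v : HeightOneSpectrum R, FractionalIdeal.count K v I = FractionalIdeal.count K v J) :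
    I = J := by
  rw [← FractionalIdeal.finprod_heightOneSpectrum_factorization' K hI,
    ← FractionalIdeal.finprod_heightOneSpectrum_factorization' K hJ]
  exact finprod_congr fun v => by rw [h]

lemma idealOf_div (x : Kˣ) : idealOf K (div (R := R) x) = toPrincipalIdeal R K x := by
  rw [eq_comm, toPrincipalIdeal_eq_iff]
  refine eq_of_count_eq K ?_ (Units.ne_zero _) fun v => ?_
  · rw [FractionalIdeal.spanSingleton_ne_zero_iff]
    exact x.ne_zero
  · rw [count_idealOf, div_apply, ord_eq_count]

lemma idealOf_injective : Function.Injective (idealOf (R := R) K) := by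
  intro D E h
  ext v
  rw [← count_idealOf K D v, ← count_idealOf K E v, h]

/-- Every unit fractional ideal comes from a divisor. -/
lemma idealOf_surjective : Function.Surjective (idealOf (R := R) K) := by
  intro I
  refine ⟨Finsupp.ofSupportFinite (fun v => FractionalIdeal.count K v (I : FractionalIdeal R⁰ K))
    ?_, ?_⟩
  · have h := FractionalIdeal.finite_factors (K := K) (I : FractionalIdeal R⁰ K)
    rw [Filter.eventually_cofinite] at h
    exact h
  · refine Units.ext (eq_of_count_eq K (Units.ne_zero _) (Units.ne_zero _) fun v => ?_)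
    rw [count_idealOf]
    rfl

/-- A divisor is the divisor of an element iff its class is trivial. -/
lemma exists_div_eq_iff (D : HeightOneSpectrum R →₀ ℤ) :
    (∃ x : Kˣ, div x = D) ↔ ClassGroup.mk K (idealOf K D) = 1 := by
  rw [← (ClassGroup.equiv K).injective.eq_iff, map_one, ClassGroup.equiv_mk]
  simp only [FractionalIdeal.canonicalEquiv_self, RingEquiv.coe_mulEquiv_refl,
    QuotientGroup.mk'_apply, QuotientGroup.eq_one_iff, MonoidHom.mem_range]
  constructor
  · rintro ⟨x, rfl⟩
    refine ⟨x, ?_⟩
    rw [idealOf_div]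
    rfl
  · rintro ⟨x, hx⟩
    refine ⟨x, idealOf_injective K ?_⟩
    rw [idealOf_div, hx]
    rfl

@[simp] lemma div_one : div (R := R) (1 : Kˣ) = 0 := by
  ext v
  simp

@[simp] lemma div_mul (x y : Kˣ) : div (R := R) (x * y) = div x + div y := by
  ext v
  simp

@[simp] lemma div_inv (x : Kˣ) : div (R := R) x⁻¹ = - div x := by
  ext v
  simp

@[simp] lemma div_pow (x : Kˣ) (n : ℕ) : div (R := R) (x ^ n) = n • div x := by
  ext v
  simp

/-- Elements with trivial divisor are units. -/
lemma div_eq_zero_iff (x : Kˣ) :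
    div (R := R) x = 0 ↔ ∃ u : Rˣ, Units.map (algebraMap R K : R →* K) u = x := by
  constructor
  · intro h
    have h1 : ∀ v : HeightOneSpectrum R, ord v x = 0 := fun v => DFunLike.congr_fun h v
    obtain ⟨a, ha⟩ := HeightOneSpectrum.mem_integers_of_valuation_le_one (R := R) K (x : K)
      fun v => ((ord_eq_zero_iff K v x).mp (h1 v)).le
    obtain ⟨b, hb⟩ := HeightOneSpectrum.mem_integers_of_valuation_le_one (R := R) K
      ((x⁻¹ : Kˣ) : K) fun v => ((ord_eq_zero_iff K v x⁻¹).mp (by rw [ord_inv, h1 v, neg_zero])).le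
    have hab : a * b = 1 := by
      apply IsFractionRing.injective R K
      rw [map_mul, ha, hb, map_one, Units.mul_inv]
    exact ⟨⟨a, b, hab, by rw [mul_comm, hab]⟩, Units.ext ha⟩
  · rintro ⟨u, rfl⟩
    ext v
    rw [div_apply, Finsupp.zero_apply, ord, HeightOneSpectrum.valuation_of_unit_eq]
    rfl

end Dedekind

section NumberField

variable (K : Type*) [Field K] [NumberField K]

/-- Some power of each prime is principal. -/
lemma exists_div_eq_single (v : HeightOneSpectrum (𝓞 K)) :
    ∃ x : Kˣ, div x = Finsupp.single v (classNumber K : ℤ) := by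
  rw [exists_div_eq_iff]
  have h : Finsupp.single v (classNumber K : ℤ) =
      (classNumber K : ℤ) • Finsupp.single v (1 : ℤ) := by
    rw [Finsupp.smul_single, smul_eq_mul, mul_one]
  rw [h, idealOf_zsmul, zpow_natCast, map_pow, classNumber, pow_card_eq_one]

variable {K} (S : Finset (HeightOneSpectrum (𝓞 K)))

lemma mem_unit_iff (x : Kˣ) :
    x ∈ (S : Set (HeightOneSpectrum (𝓞 K))).unit K ↔ ∀ v ∉ S, ord v x = 0 := by
  simp only [ord_eq_zero_iff]
  rfl

/-- The valuation vector of an `S`-unit. -/
noncomputable def ordVec :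
    Additive ((S : Set (HeightOneSpectrum (𝓞 K))).unit K) →ₗ[ℤ] (S → ℤ) :=
  AddMonoidHom.toIntLinearMap
    { toFun := fun x v => ord (v : HeightOneSpectrum (𝓞 K)) (x.toMul : Kˣ)
      map_zero' := by
        ext v
        simp
      map_add' := fun x y => by
        ext v
        simp }

@[simp] lemma ordVec_apply (x : Additive ((S : Set (HeightOneSpectrum (𝓞 K))).unit K)) (v : S) :
    ordVec S x v = ord (v : HeightOneSpectrum (𝓞 K)) (x.toMul : Kˣ) := rfl

/-- ordinary units inside `S`-units. -/
noncomputable def unitsToSUnits : (𝓞 K)ˣ →* (S : Set (HeightOneSpectrum (𝓞 K))).unit K :=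
  (Units.map (algebraMap (𝓞 K) K : 𝓞 K →* K)).codRestrict _ fun u => by
    rw [mem_unit_iff]
    intro v _
    have := (div_eq_zero_iff K (R := 𝓞 K) _).mpr ⟨u, rfl⟩
    rw [← div_apply, this]
    rfl

lemma unitsToSUnits_injective : Function.Injective (unitsToSUnits S) := by
  intro u v h
  have h1 := congrArg (fun x : (S : Set (HeightOneSpectrum (𝓞 K))).unit K => ((x : Kˣ) : K)) h
  exact Units.ext (RingOfIntegers.coe_injective h1)

lemma ker_ordVec :
    LinearMap.ker (ordVec S) =
      LinearMap.range (MonoidHom.toAdditive (unitsToSUnits S)).toIntLinearMap := by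
  ext x
  rw [LinearMap.mem_ker, LinearMap.mem_range]
  constructor
  · intro hx
    have h1 : div (R := 𝓞 K) (x.toMul : Kˣ) = 0 := by
      ext v
      by_cases hv : v ∈ S
      · exact congrFun hx ⟨v, hv⟩
      · exact (mem_unit_iff S _).mp x.toMul.2 v hv
    obtain ⟨u, hu⟩ := (div_eq_zero_iff K (R := 𝓞 K) _).mp h1
    exact ⟨Additive.ofMul u, congrArg Additive.ofMul (Subtype.ext hu :
      unitsToSUnits S u = x.toMul)⟩
  · rintro ⟨u, rfl⟩
    ext v
    have := (div_eq_zero_iff K (R := 𝓞 K) _).mpr ⟨u.toMul, rfl⟩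
    change ord (v : HeightOneSpectrum (𝓞 K)) (Units.map (algebraMap (𝓞 K) K : 𝓞 K →* K) u.toMul) = 0
    rw [← div_apply, this]
    rfl

instance finite_ker_ordVec : Module.Finite ℤ (LinearMap.ker (ordVec S)) := by
  rw [ker_ordVec]
  infer_instance

lemma finrank_ker_ordVec : Module.finrank ℤ (LinearMap.ker (ordVec S)) = Units.rank K := by
  rw [ker_ordVec, ← Units.finrank_eq]
  refine (LinearEquiv.ofInjective (MonoidHom.toAdditive (unitsToSUnits S)).toIntLinearMap
    ?_).symm.finrank_eq
  exact fun a b h => unitsToSUnits_injective S h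

instance finite_sunits :
    Module.Finite ℤ (Additive ((S : Set (HeightOneSpectrum (𝓞 K))).unit K)) := by
  have h1 : Module.Finite ℤ (LinearMap.range (ordVec S)) := inferInstance
  refine ⟨Submodule.fg_of_fg_map_of_fg_inf_ker (ordVec S) ?_ ?_⟩
  · rw [Submodule.map_top]
    exact Module.Finite.iff_fg.mp h1
  · rw [top_inf_eq]
    exact Module.Finite.iff_fg.mp (finite_ker_ordVec S)

lemma finrank_range_ordVec : Module.finrank ℤ (LinearMap.range (ordVec S)) = S.card := by
  classical
  have h1 := (LinearMap.range (ordVec S)).finrank_quotient_add_finrank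
  have h2 : Module.finrank ℤ ((S → ℤ) ⧸ LinearMap.range (ordVec S)) = 0 := by
    rw [Module.finrank_eq_zero_iff_isTorsion]
    intro x
    obtain ⟨x, rfl⟩ := Submodule.Quotient.mk_surjective _ x
    refine ⟨⟨(classNumber K : ℤ), ?_⟩, ?_⟩
    · rw [mem_nonZeroDivisors_iff_ne_zero]
      exact_mod_cast (classNumber_ne_zero K)
    · change (classNumber K : ℤ) •
        (Submodule.Quotient.mk x : (S → ℤ) ⧸ LinearMap.range (ordVec S)) = 0
      rw [← Submodule.Quotient.mk_smul, Submodule.Quotient.mk_eq_zero]
      have h3 : (classNumber K : ℤ) • x =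
          ∑ v : S, x v • Pi.single (M := fun _ : S => ℤ) v (classNumber K : ℤ) := by
        ext w
        rw [Finset.sum_apply, Finset.sum_eq_single w]
        · simp [mul_comm]
        · intro b _ hb
          simp [Pi.single_eq_of_ne hb.symm]
        · intro h
          exact absurd (Finset.mem_univ _) h
      rw [h3]
      refine Submodule.sum_mem _ fun v _ => Submodule.smul_mem _ _ ?_
      obtain ⟨y, hy⟩ := exists_div_eq_single K (v : HeightOneSpectrum (𝓞 K))
      have hyS : y ∈ (S : Set (HeightOneSpectrum (𝓞 K))).unit K := by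
        rw [mem_unit_iff]
        intro w hw
        rw [← div_apply, hy, Finsupp.single_eq_of_ne]
        rintro rfl
        exact hw v.2
      refine ⟨Additive.ofMul ⟨y, hyS⟩, ?_⟩
      ext w
      change ord (w : HeightOneSpectrum (𝓞 K)) y = _
      rw [← div_apply, hy]
      by_cases hwv : w = v
      · subst hwv
        simp
      · rw [Pi.single_eq_of_ne hwv, Finsupp.single_eq_of_ne]
        intro h
        exact hwv (Subtype.ext h)
  rw [h2, zero_add, Module.finrank_fintype_fun_eq_card, Fintype.card_coe] at h1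
  exact h1

/-- **Dirichlet's S-unit theorem**: the rank. -/
theorem finrank_sunits :
    Module.finrank ℤ (Additive ((S : Set (HeightOneSpectrum (𝓞 K))).unit K)) =
      Units.rank K + S.card := by
  have h := (LinearMap.ker (ordVec S)).finrank_quotient_add_finrank
  rw [(LinearMap.quotKerEquivRange (ordVec S)).finrank_eq, finrank_range_ordVec,
    finrank_ker_ordVec] at h
  rw [← h, add_comm]

end NumberField

end Fermat.Agent.CFT.SUnits
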