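import Mathlib.GroupTheory.Index
import Mathlib.RingTheory.RootsOfUnity.Lemmas
import Mathlib.RingTheory.Polynomial.Cyclotomic.Roots
import Mathlib.RingTheory.RootsOfUnity.Complex
import Mathlib.RingTheory.Polynomial.Cyclotomic.Expand
import Mathlib.FieldTheory.Minpoly.IsIntegrallyClosed
import Mathlib.Algebra.Algebra.Hom.Rat

/-!
# Chevalley's lemma on Herbrand quotients for cyclic groups of prime order

`G = ⟨σ⟩` cyclic of prime order `p` acting on an abelian group `A`.
We prove `h(A)^(p-1) = h_{0,p}(A^G)^p / h_{0,p}(A)`.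
-/

set_option autoImplicit false

namespace Fermat.Agent.CFT.Chevalley

open AddSubgroup

section General

variable {A C : Type*} [AddCommGroup A] [AddCommGroup C]

/-- Snake lemma in terms of cardinalities; no finiteness assumption. -/
theorem snake_card (f : A →+ A) (g : A →+ C) (f' : C →+ C) (hg : Function.Surjective g)
    (h : ∀ a, g (f a) = f' (g a)) :
    f.range.index * Nat.card ↥(f.ker ⊓ g.ker) * Nat.card f'.ker =
      (g.ker.map f).relIndex g.ker * f'.range.index * Nat.card f.ker := by
  set R := f.range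
  set B := g.ker
  set K := f.ker
  have hX : f'.ker.comap g = B.comap f := by
    ext a
    simp only [AddSubgroup.mem_comap, AddMonoidHom.mem_ker, B, ← h]
  -- (i)
  have h1 : (R ⊔ B).index = f'.range.index := by
    rw [← AddSubgroup.index_comap_of_surjective f'.range hg]
    congr 1
    ext a
    simp only [AddSubgroup.mem_comap, AddMonoidHom.mem_range, AddSubgroup.mem_sup, R, B,
      AddMonoidHom.mem_ker]
    constructor
    · rintro ⟨_, ⟨x, rfl⟩, z, hz, rfl⟩
      exact ⟨g x, by rw [map_add, hz, add_zero, h]⟩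
    · rintro ⟨y, hy⟩
      obtain ⟨x, rfl⟩ := hg y
      refine ⟨f x, ⟨x, rfl⟩, a - f x, ?_, by abel⟩
      rw [map_sub, h, hy, sub_self]
  have h2 : R.index = R.relIndex B * f'.range.index := by
    rw [← h1, ← AddSubgroup.relIndex_mul_index (le_sup_left : R ≤ R ⊔ B)]
    congr 1
    exact AddSubgroup.relIndex_sup_left B R
  -- (ii)
  have h3 : (B.map f).relIndex B = (B.map f).relIndex (R ⊓ B) * R.relIndex B := by
    have hle : B.map f ⊓ B ≤ R ⊓ B := by
      refine inf_le_inf_right _ ?_
      rintro _ ⟨x, _, rfl⟩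
      exact ⟨x, rfl⟩
    rw [← AddSubgroup.inf_relIndex_right (B.map f) B,
      ← AddSubgroup.relIndex_mul_relIndex _ _ _ hle inf_le_right,
      AddSubgroup.inf_relIndex_right R B]
    congr 1
    rw [← AddSubgroup.inf_relIndex_right (B.map f ⊓ B) (R ⊓ B),
      ← AddSubgroup.inf_relIndex_right (B.map f) (R ⊓ B)]
    congr 1
    ext x
    simp only [AddSubgroup.mem_inf]
    tauto
  -- (iii)
  have h4 : Nat.card f'.ker = B.relIndex (B.comap f) := by
    have : B = (⊥ : AddSubgroup C).comap g := (AddMonoidHom.comap_bot g).symm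
    conv_rhs => rw [this]
    rw [AddSubgroup.relIndex_comap, AddSubgroup.relIndex_bot_left, ← this, ← hX,
      AddSubgroup.map_comap_eq_self_of_surjective hg]
  have hKX : K ≤ B.comap f := by
    intro x hx
    rw [AddSubgroup.mem_comap, (AddMonoidHom.mem_ker.mp hx)]
    exact B.zero_mem
  by_cases hBX : B ≤ B.comap f
  swap
  · exfalso
    apply hBX
    intro x hx
    have hx' : g x = 0 := hx
    rw [AddSubgroup.mem_comap]
    change g (f x) = 0
    rw [h, hx', map_zero]
  have h5 : B.relIndex (B.comap f) = B.relIndex K * (B ⊔ K).relIndex (B.comap f) := by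
    rw [← AddSubgroup.relIndex_mul_relIndex B (B ⊔ K) (B.comap f) le_sup_left
      (sup_le hBX hKX)]
    congr 1
    exact AddSubgroup.relIndex_sup_left K B
  have h6 : (B ⊔ K).relIndex (B.comap f) = (B.map f).relIndex (R ⊓ B) := by
    have := AddSubgroup.relIndex_map_map f B (B.comap f)
    rw [AddSubgroup.map_comap_eq] at this
    rw [this]
    congr 1
    exact (sup_eq_left.mpr hKX).symm
  have h7 : Nat.card K = Nat.card ↥(K ⊓ B) * B.relIndex K := by
    rw [← AddSubgroup.relIndex_bot_left, ← AddSubgroup.relIndex_bot_left,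
      ← AddSubgroup.inf_relIndex_right B K, inf_comm B K,
      AddSubgroup.relIndex_mul_relIndex _ _ _ bot_le inf_le_left]
  rw [h2, h4, h5, h6, h3, h7]
  ring

/-- multiplicativity of index/kernel under composition; no finiteness assumption. -/
theorem comp_card (f g : A →+ A) :
    (f.comp g).range.index * Nat.card f.ker * Nat.card g.ker =
      f.range.index * g.range.index * Nat.card (f.comp g).ker := by
  set R := g.range
  set K := f.ker
  have h1 : (f.comp g).range = R.map f := (AddMonoidHom.map_range f g).symm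
  have h2 : (R.map f).index = (R ⊔ K).index * f.range.index := by
    rw [← AddSubgroup.relIndex_mul_index (H := R.map f) (K := f.range)
      (by rintro _ ⟨x, _, rfl⟩; exact ⟨x, rfl⟩)]
    congr 1
    have := AddSubgroup.relIndex_map_map f R ⊤
    rw [← AddMonoidHom.range_eq_map] at this
    rw [this, top_sup_eq, AddSubgroup.relIndex_top_right]
  have h3 : R.index = R.relIndex K * (R ⊔ K).index := by
    rw [← AddSubgroup.relIndex_mul_index (le_sup_left : R ≤ R ⊔ K)]
    congr 1
    exact AddSubgroup.relIndex_sup_left K R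
  have h4 : Nat.card K = Nat.card ↥(K ⊓ R) * R.relIndex K := by
    rw [← AddSubgroup.relIndex_bot_left, ← AddSubgroup.relIndex_bot_left,
      ← AddSubgroup.inf_relIndex_right R K, inf_comm R K,
      AddSubgroup.relIndex_mul_relIndex _ _ _ bot_le inf_le_left]
  have h5 : Nat.card (f.comp g).ker = Nat.card g.ker * Nat.card ↥(K ⊓ R) := by
    have hc : (f.comp g).ker = K.comap g := rfl
    have hle : g.ker ≤ K.comap g := by
      intro x hx
      rw [AddSubgroup.mem_comap, (AddMonoidHom.mem_ker.mp hx)]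
      exact K.zero_mem
    rw [hc, ← AddSubgroup.relIndex_bot_left,
      ← AddSubgroup.relIndex_mul_relIndex ⊥ g.ker (K.comap g) bot_le hle,
      AddSubgroup.relIndex_bot_left]
    congr 1
    have : g.ker = (⊥ : AddSubgroup A).comap g := (AddMonoidHom.comap_bot g).symm
    rw [this, AddSubgroup.relIndex_comap, AddSubgroup.relIndex_bot_left,
      AddSubgroup.map_comap_eq, inf_comm]
  rw [h1, h2, h3, h4, h5]
  ring

end General

section Prime

variable {A : Type*} [AddCommGroup A]

/-- kernel of an endomorphism of an additive group -/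
def eker (f : AddMonoid.End A) : AddSubgroup A := AddMonoidHom.ker f

/-- range of an endomorphism of an additive group -/
def erange (f : AddMonoid.End A) : AddSubgroup A := AddMonoidHom.range f

lemma mem_eker {f : AddMonoid.End A} {x : A} : x ∈ eker f ↔ f x = 0 := Iff.rfl

lemma mem_erange {f : AddMonoid.End A} {x : A} : x ∈ erange f ↔ ∃ y, f y = x := Iff.rfl

lemma ecomp_card (f g : AddMonoid.End A) :
    (erange (f * g)).index * Nat.card (eker f) * Nat.card (eker g) =
      (erange f).index * (erange g).index * Nat.card (eker (f * g)) :=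
  comp_card f g

/-- iterated left products -/
def lprod (f : ℕ → AddMonoid.End A) : ℕ → AddMonoid.End A
  | 0 => 1
  | n + 1 => f n * lprod f n

lemma ker_lprod_le (f : ℕ → AddMonoid.End A) (n : ℕ) :
    eker (lprod f n) ≤ eker (lprod f (n + 1)) := by
  intro x hx
  rw [mem_eker] at hx ⊢
  change f n (lprod f n x) = 0
  rw [hx, map_zero]

lemma lprod_card (f : ℕ → AddMonoid.End A) (i₀ k₀ : ℕ) (n : ℕ)
    (hi : ∀ j < n, (erange (f j)).index = i₀)
    (hk : ∀ j < n, Nat.card (eker (f j)) = k₀)
    (hfin : Nat.card (eker (lprod f n)) ≠ 0) :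
    (erange (lprod f n)).index * k₀ ^ n =
      i₀ ^ n * Nat.card (eker (lprod f n)) := by
  induction n with
  | zero =>
    have h1 : erange (lprod f 0) = ⊤ := by
      rw [eq_top_iff]
      intro x _
      exact ⟨x, rfl⟩
    have h2 : eker (lprod f 0) = ⊥ := by
      rw [eq_bot_iff]
      intro x hx
      exact hx
    rw [h1, h2]
    simp
  | succ n ih =>
    have hfin' : Nat.card (eker (lprod f n)) ≠ 0 := by
      intro h
      apply hfin
      exact Nat.eq_zero_of_zero_dvd (h ▸ AddSubgroup.card_dvd_of_le (ker_lprod_le f n))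
    have ih' := ih (fun j hj => hi j (by omega)) (fun j hj => hk j (by omega)) hfin'
    have hc := ecomp_card (f n) (lprod f n)
    have e : f n * lprod f n = lprod f (n + 1) := rfl
    rw [e, hi n (by omega), hk n (by omega)] at hc
    refine Nat.eq_of_mul_eq_mul_right (Nat.pos_of_ne_zero hfin') ?_
    calc (erange (lprod f (n + 1))).index * k₀ ^ (n + 1) *
          Nat.card (eker (lprod f n))
        = ((erange (lprod f (n + 1))).index * k₀ *
          Nat.card (eker (lprod f n))) * k₀ ^ n := by ring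
      _ = i₀ * ((erange (lprod f n)).index * k₀ ^ n) *
          Nat.card (eker (lprod f (n + 1))) := by rw [hc]; ring
      _ = _ := by rw [ih']; ring

open Polynomial in
lemma exists_prod_eq (p : ℕ) (hp : p.Prime) :
    ∃ q : ℤ[X], (∏ k ∈ Finset.range (p - 1), (1 - X ^ (k + 1) : ℤ[X])) =
      (p : ℤ[X]) + q * ∑ i ∈ Finset.range p, X ^ i := by
  obtain ⟨n, rfl⟩ : ∃ n, p = n + 1 := ⟨p - 1, by have := hp.pos; omega⟩
  have hζ := Complex.isPrimitiveRoot_exp (n + 1) (by omega)
  set ζ := Complex.exp (2 * Real.pi * Complex.I / ((n + 1 : ℕ) : ℂ))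
  have h1 := hζ.prod_one_sub_pow_eq_order
  have : Fact (n + 1).Prime := ⟨hp⟩
  have h2 : minpoly ℤ ζ ∣
      (∏ k ∈ Finset.range n, (1 - X ^ (k + 1) : ℤ[X])) - ((n + 1 : ℕ) : ℤ[X]) := by
    apply minpoly.isIntegrallyClosed_dvd (hζ.isIntegral (by omega))
    rw [map_sub, map_prod, map_natCast]
    simp only [map_sub, map_one, map_pow, aeval_X]
    rw [h1]
    push_cast
    ring
  rw [← Polynomial.cyclotomic_eq_minpoly hζ (by omega), Polynomial.cyclotomic_prime] at h2
  obtain ⟨q, hq⟩ := h2
  refine ⟨q, ?_⟩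
  rw [mul_comm q, ← hq]
  simp only [Nat.add_sub_cancel]
  ring

lemma lprod_eq_prod (σ : AddMonoid.End A) (n : ℕ) :
    lprod (fun k => 1 - σ ^ (k + 1)) n =
      Polynomial.aeval σ (∏ k ∈ Finset.range n, (1 - Polynomial.X ^ (k + 1) : Polynomial ℤ)) := by
  induction n with
  | zero => simp [lprod]
  | succ n ih =>
    rw [Finset.prod_range_succ, mul_comm, map_mul, ← ih]
    simp [lprod]

lemma lprod_eq_natCast (p : ℕ) (hp : p.Prime) (σ : AddMonoid.End A)
    (hσ : ∑ i ∈ Finset.range p, σ ^ i = 0) :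
    lprod (fun k => 1 - σ ^ (k + 1)) (p - 1) = (p : AddMonoid.End A) := by
  obtain ⟨q, hq⟩ := exists_prod_eq p hp
  rw [lprod_eq_prod, hq, map_add, map_mul, map_sum]
  simp [hσ]

lemma pow_eq_one_of_sum (p : ℕ) (σ : AddMonoid.End A)
    (hσ : ∑ i ∈ Finset.range p, σ ^ i = 0) : σ ^ p = 1 := by
  have := geom_sum_mul σ p
  rw [hσ, zero_mul] at this
  exact (sub_eq_zero.mp this.symm)

lemma erange_mul_le (f g : AddMonoid.End A) : erange (f * g) ≤ erange f := by
  rintro _ ⟨x, rfl⟩
  exact ⟨g x, rfl⟩

lemma eker_le_mul (f g : AddMonoid.End A) : eker g ≤ eker (f * g) := by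
  intro x hx
  rw [mem_eker] at hx ⊢
  change f (g x) = 0
  rw [hx, map_zero]

lemma range_ker_one_sub_pow (p : ℕ) (hp : p.Prime) (σ : AddMonoid.End A) (hσ : σ ^ p = 1)
    (k : ℕ) (hk : k < p - 1) :
    erange (1 - σ ^ (k + 1)) = erange (1 - σ) ∧
      eker (1 - σ ^ (k + 1)) = eker (1 - σ) := by
  have hcop : Nat.Coprime (k + 1) p := by
    rw [Nat.coprime_comm, Nat.Prime.coprime_iff_not_dvd hp]
    intro h
    have := Nat.le_of_dvd (by omega) h
    omega
  obtain ⟨m, -, hm⟩ := Nat.exists_mul_mod_eq_one_of_coprime hcop hp.one_lt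
  have hσm : (σ ^ (k + 1)) ^ m = σ := by
    rw [← pow_mul, ← Nat.div_add_mod ((k + 1) * m) p, hm, pow_add, pow_mul, hσ, one_pow, one_mul,
      pow_one]
  have h1 : (1 : AddMonoid.End A) - σ ^ (k + 1) = (1 - σ) * ∑ i ∈ Finset.range (k + 1), σ ^ i := by
    have := mul_geom_sum σ (k + 1)
    rw [← neg_sub, ← this]
    noncomm_ring
  have h1' : (1 : AddMonoid.End A) - σ ^ (k + 1) = (∑ i ∈ Finset.range (k + 1), σ ^ i) * (1 - σ) := by
    have := geom_sum_mul σ (k + 1)
    rw [← neg_sub, ← this]
    noncomm_ring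
  have h2 : (1 : AddMonoid.End A) - σ =
      (1 - σ ^ (k + 1)) * ∑ i ∈ Finset.range m, (σ ^ (k + 1)) ^ i := by
    have := mul_geom_sum (σ ^ (k + 1)) m
    rw [hσm] at this
    rw [← neg_sub, ← this]
    noncomm_ring
  have h2' : (1 : AddMonoid.End A) - σ =
      (∑ i ∈ Finset.range m, (σ ^ (k + 1)) ^ i) * (1 - σ ^ (k + 1)) := by
    have := geom_sum_mul (σ ^ (k + 1)) m
    rw [hσm] at this
    rw [← neg_sub, ← this]
    noncomm_ring
  constructor
  · apply le_antisymm
    · rw [h1]
      exact erange_mul_le _ _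
    · conv_lhs => rw [h2]
      exact erange_mul_le _ _
  · apply le_antisymm
    · conv_rhs => rw [h2']
      exact eker_le_mul _ _
    · conv_rhs => rw [h1']
      exact eker_le_mul _ _

/-- On a module on which the norm vanishes, `h_{0,p} = h_{0,1-σ}^(p-1)`. -/
theorem card_of_norm_zero (p : ℕ) (hp : p.Prime) (σ : AddMonoid.End A)
    (hσ : ∑ i ∈ Finset.range p, σ ^ i = 0)
    (hfin : Nat.card (eker (p : AddMonoid.End A)) ≠ 0) :
    (erange (p : AddMonoid.End A)).index *
        Nat.card (eker (1 - σ)) ^ (p - 1) =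
      (erange (1 - σ)).index ^ (p - 1) *
        Nat.card (eker (p : AddMonoid.End A)) := by
  have hσp := pow_eq_one_of_sum p σ hσ
  rw [← lprod_eq_natCast p hp σ hσ] at hfin ⊢
  apply lprod_card
  · intro j hj
    rw [(range_ker_one_sub_pow p hp σ hσp j hj).1]
  · intro j hj
    rw [(range_ker_one_sub_pow p hp σ hσp j hj).2]
  · exact hfin

/-- The norm `1 + σ + ... + σ^(p-1)`. -/
def norm (p : ℕ) (σ : AddMonoid.End A) : AddMonoid.End A := ∑ i ∈ Finset.range p, σ ^ i

lemma norm_mul_one_sub (p : ℕ) (σ : AddMonoid.End A) (hσ : σ ^ p = 1) :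
    norm p σ * (1 - σ) = 0 := by
  have := geom_sum_mul σ p
  rw [hσ, sub_self] at this
  rw [norm, ← neg_sub, mul_neg, this, neg_zero]

lemma one_sub_mul_norm (p : ℕ) (σ : AddMonoid.End A) (hσ : σ ^ p = 1) :
    (1 - σ) * norm p σ = 0 := by
  have := mul_geom_sum σ p
  rw [hσ, sub_self] at this
  rw [norm, ← neg_sub, neg_mul, this, neg_zero]

lemma norm_apply_of_fixed (p : ℕ) (σ : AddMonoid.End A) (x : A) (hx : x ∈ eker (1 - σ)) :
    norm p σ x = (p : AddMonoid.End A) x := by
  have hx' : σ x = x := by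
    have : x - σ x = 0 := hx
    exact (sub_eq_zero.mp this).symm
  have hpow : ∀ i : ℕ, (σ ^ i) x = x := by
    intro i
    induction i with
    | zero => simp
    | succ i ih =>
      rw [pow_succ]
      change (σ ^ i) (σ x) = x
      rw [hx', ih]
  have e1 : norm p σ x = ∑ i ∈ Finset.range p, (σ ^ i) x := by
    rw [norm]
    exact AddMonoidHom.finsetSum_apply _ _ _
  rw [e1, Finset.sum_congr rfl (fun i _ => hpow i), Finset.sum_const, Finset.card_range]
  exact (AddMonoid.End.natCast_apply p x).symm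

/-- order of `Ĥ⁰` -/
noncomputable def h0 (p : ℕ) (σ : AddMonoid.End A) : ℕ :=
  (erange (norm p σ)).relIndex (eker (1 - σ))

/-- order of `Ĥ⁻¹ ≅ H¹` -/
noncomputable def h1 (p : ℕ) (σ : AddMonoid.End A) : ℕ :=
  (erange (1 - σ)).relIndex (eker (norm p σ))

/-- First ingredient of Chevalley's lemma. -/
theorem h0_h1_eq (p : ℕ) (σ : AddMonoid.End A) (hσ : σ ^ p = 1) :
    h0 p σ * ((erange (1 - σ)).map (1 - σ : AddMonoid.End A)).relIndex (erange (1 - σ)) *
        Nat.card ↥(eker (1 - σ) ⊓ eker (p : AddMonoid.End A)) =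
      h1 p σ * Nat.card ↥(erange (1 - σ) ⊓ eker (1 - σ)) *
        ((eker (1 - σ)).map (p : AddMonoid.End A)).relIndex (eker (1 - σ)) ∧
    h0 p σ ∣ ((eker (1 - σ)).map (p : AddMonoid.End A)).relIndex (eker (1 - σ)) := by
  set D : AddMonoid.End A := 1 - σ with hD
  set N : AddMonoid.End A := norm p σ with hN
  set B := erange D
  set AG := eker D
  set K := eker N
  set T := AG ⊓ eker (p : AddMonoid.End A)
  have hND : N * D = 0 := norm_mul_one_sub p σ hσ
  have hDN : D * N = 0 := one_sub_mul_norm p σ hσ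
  have hBK : B ≤ K := by
    rintro _ ⟨x, rfl⟩
    rw [mem_eker]
    exact DFunLike.congr_fun hND x
  have hNAG : erange N ≤ AG := by
    rintro _ ⟨x, rfl⟩
    rw [mem_eker]
    exact DFunLike.congr_fun hDN x
  have hfix : ∀ x ∈ AG, N x = (p : AddMonoid.End A) x := fun x hx => norm_apply_of_fixed p σ x hx
  -- `[A^G : p A^G] = h0 * [B : D K]`
  have e1 : (AG.map (p : AddMonoid.End A)).relIndex AG = (K.map D).relIndex B * h0 p σ := by
    have : AG.map (p : AddMonoid.End A) = AG.map N := by
      ext y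
      simp only [AddSubgroup.mem_map]
      constructor
      · rintro ⟨x, hx, rfl⟩
        exact ⟨x, hx, hfix x hx⟩
      · rintro ⟨x, hx, rfl⟩
        exact ⟨x, hx, (hfix x hx).symm⟩
    rw [this, ← AddSubgroup.relIndex_mul_relIndex (AG.map N) (erange N) AG
      (by rintro _ ⟨x, _, rfl⟩; exact ⟨x, rfl⟩) hNAG]
    have a1 := AddSubgroup.relIndex_map_map N AG ⊤
    have a2 := AddSubgroup.relIndex_map_map D K ⊤
    have r1 : (⊤ : AddSubgroup A).map N = erange N := (AddMonoidHom.range_eq_map N).symm
    have r2 : (⊤ : AddSubgroup A).map D = B := (AddMonoidHom.range_eq_map D).symm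
    rw [r1] at a1
    rw [r2] at a2
    rw [a1, a2, top_sup_eq, top_sup_eq]
    congr 2
    exact sup_comm AG K
  -- `[B : D B] = [B : D K] * [K : B + T]`
  have e2 : (B.map D).relIndex B = (B ⊔ T).relIndex K * (K.map D).relIndex B := by
    rw [← AddSubgroup.relIndex_mul_relIndex (B.map D) (K.map D) B
      (AddSubgroup.map_mono hBK) (by rintro _ ⟨x, _, rfl⟩; exact ⟨x, rfl⟩)]
    congr 1
    have a1 := AddSubgroup.relIndex_map_map D B K
    rw [a1]
    change (B ⊔ AG).relIndex (K ⊔ AG) = _
    have : K ⊔ AG = (B ⊔ AG) ⊔ K := by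
      rw [sup_comm (B ⊔ AG) K, ← sup_assoc, sup_eq_left.mpr hBK]
    rw [this, AddSubgroup.relIndex_sup_left]
    rw [← AddSubgroup.inf_relIndex_right]
    congr 1
    rw [sup_inf_assoc_of_le AG hBK]
    congr 1
    ext x
    simp only [AddSubgroup.mem_inf, T, K, mem_eker]
    constructor
    · rintro ⟨h1, h2⟩
      refine ⟨h1, ?_⟩
      rw [← hfix x h1]
      exact h2
    · rintro ⟨h1, h2⟩
      refine ⟨h1, ?_⟩
      rw [hfix x h1]
      exact h2
  have hTK : T ≤ K := by
    intro x hx
    rw [mem_eker, hfix x hx.1]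
    exact hx.2
  have e3 : h1 p σ = B.relIndex T * (B ⊔ T).relIndex K := by
    have : h1 p σ = B.relIndex K := rfl
    rw [this, ← AddSubgroup.relIndex_mul_relIndex B (B ⊔ T) K le_sup_left (sup_le hBK hTK)]
    congr 1
    exact AddSubgroup.relIndex_sup_left T B
  have e4 : Nat.card T = Nat.card ↥(B ⊓ AG) * B.relIndex T := by
    have hBT : B ⊓ T = B ⊓ AG := by
      ext x
      simp only [AddSubgroup.mem_inf, T]
      constructor
      · rintro ⟨h1, h2, h3⟩
        exact ⟨h1, h2⟩
      · rintro ⟨h1, h2⟩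
        refine ⟨h1, h2, ?_⟩
        rw [mem_eker, ← hfix x h2]
        exact hBK h1
    rw [← AddSubgroup.relIndex_bot_left, ← AddSubgroup.relIndex_bot_left,
      ← AddSubgroup.inf_relIndex_right B T, ← hBT,
      AddSubgroup.relIndex_mul_relIndex _ _ _ bot_le inf_le_right]
  refine ⟨?_, e1 ▸ Dvd.intro_left _ rfl⟩
  rw [e1, e2, e3, e4]
  ring

/-- The restriction of an endomorphism commuting with `D` to the range of `D`. -/
def restrictRange (D f : AddMonoid.End A) (h : f * D = D * f) : AddMonoid.End (erange D) where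
  toFun x := ⟨f x.1, by
    obtain ⟨y, hy⟩ := x.2
    refine ⟨f y, ?_⟩
    rw [← hy]
    exact (DFunLike.congr_fun h y).symm⟩
  map_zero' := by ext; simp
  map_add' x y := by ext; simp

/-- **Chevalley's lemma**: for `σ ^ p = 1`, `p` prime, `h0 / h1` is determined by
the `p`-ranks of `A` and `A^σ`:
`h0^(p-1) |A^G[p]|^p [A:pA] = h1^(p-1) [A^G:pA^G]^p |A[p]|`. -/
theorem chevalley (p : ℕ) (hp : p.Prime) (σ : AddMonoid.End A) (hσ : σ ^ p = 1)
    (hker : Nat.card (eker (p : AddMonoid.End A)) ≠ 0)
    (hidx : (erange (p : AddMonoid.End A)).index ≠ 0) :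
    (h0 p σ) ^ (p - 1) * (Nat.card ↥(eker (1 - σ) ⊓ eker (p : AddMonoid.End A))) ^ p *
        (erange (p : AddMonoid.End A)).index =
      (h1 p σ) ^ (p - 1) *
        (((eker (1 - σ)).map (p : AddMonoid.End A)).relIndex (eker (1 - σ))) ^ p *
        Nat.card (eker (p : AddMonoid.End A)) ∧
    h0 p σ ≠ 0 ∧ h1 p σ ≠ 0 ∧
      ((eker (1 - σ)).map (p : AddMonoid.End A)).relIndex (eker (1 - σ)) ≠ 0 := by
  have hcomm : σ * (1 - σ) = (1 - σ) * σ := by noncomm_ring
  obtain ⟨E1, Edvd⟩ := h0_h1_eq p σ hσ
  set D : AddMonoid.End A := 1 - σ with hD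
  set σB : AddMonoid.End (erange D) := restrictRange D σ hcomm with hσB
  have hσBpow : ∀ (i : ℕ) (x : erange D), (((σB ^ i) x : erange D) : A) = (σ ^ i) x := by
    intro i
    induction i with
    | zero => intro x; rfl
    | succ i ih =>
      intro x
      rw [pow_succ, pow_succ]
      change (((σB ^ i) (σB x) : erange D) : A) = (σ ^ i) (σ x)
      rw [ih]
      rfl
  have hσBsum : ∑ i ∈ Finset.range p, σB ^ i = 0 := by
    ext x
    have e1 : (∑ i ∈ Finset.range p, σB ^ i) x = ∑ i ∈ Finset.range p, (σB ^ i) x :=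
      AddMonoidHom.finsetSum_apply _ _ _
    have e0 : ((∑ i ∈ Finset.range p, (σB ^ i) x : erange D) : A) =
        ∑ i ∈ Finset.range p, (((σB ^ i) x : erange D) : A) :=
      map_sum (AddSubgroup.subtype (erange D)) _ _
    rw [e1, e0, Finset.sum_congr rfl (fun i _ => hσBpow i x)]
    have e2 : (norm p σ) x = ∑ i ∈ Finset.range p, (σ ^ i) (x : A) :=
      AddMonoidHom.finsetSum_apply _ _ _
    rw [← e2]
    obtain ⟨y, hy⟩ := x.2
    rw [← hy]
    exact DFunLike.congr_fun (norm_mul_one_sub p σ hσ) y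
  -- the restriction of multiplication by `p`
  have hpB : ∀ x : erange D, (((p : AddMonoid.End (erange D)) x : erange D) : A) =
      (p : AddMonoid.End A) x := by
    intro x
    rw [AddMonoid.End.natCast_apply, AddMonoid.End.natCast_apply]
    rfl
  -- snake lemma
  let g : A →+ erange D := AddMonoidHom.rangeRestrict D
  have hg : Function.Surjective g := AddMonoidHom.rangeRestrict_surjective D
  have hgker : g.ker = eker D := AddMonoidHom.ker_rangeRestrict D
  have E3 := snake_card (p : AddMonoid.End A) g (p : AddMonoid.End (erange D)) hg (by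
    intro a
    apply Subtype.ext
    refine Eq.trans ?_ (hpB (g a)).symm
    change D ((p : AddMonoid.End A) a) = (p : AddMonoid.End A) (D a)
    rw [AddMonoid.End.natCast_apply, AddMonoid.End.natCast_apply, map_nsmul])
  rw [hgker] at E3
  have hkerB : Nat.card (eker (p : AddMonoid.End (erange D))) ≠ 0 := by
    have : Finite (eker (p : AddMonoid.End A)) := Nat.finite_of_card_ne_zero hker
    have : Finite (eker (p : AddMonoid.End (erange D))) := by
      refine Finite.of_injective
        (fun x => (⟨(x : erange D).1, ?_⟩ : eker (p : AddMonoid.End A))) ?_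
      · rw [mem_eker, ← hpB]
        have := x.2
        rw [mem_eker] at this
        rw [this]
        rfl
      · intro x y hxy
        apply Subtype.ext
        apply Subtype.ext
        exact congrArg (fun z : eker (p : AddMonoid.End A) => z.1) hxy
    exact Nat.card_pos.ne'
  have E2 := card_of_norm_zero p hp σB hσBsum hkerB
  -- identify the `B`-terms
  have b1 : Nat.card (eker (1 - σB)) = Nat.card ↥(erange D ⊓ eker D) := by
    refine Nat.card_congr
      { toFun := fun x => ⟨(x : erange D).1, (x : erange D).2, ?_⟩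
        invFun := fun x => ⟨⟨x.1, x.2.1⟩, ?_⟩
        left_inv := fun x => rfl
        right_inv := fun x => rfl }
    · have h : (1 - σB) (x : erange D) = 0 := x.2
      have h' : D ((x : erange D) : A) = 0 := congrArg (fun z : erange D => z.1) h
      exact h'
    · have h : D (x : A) = 0 := x.2.2
      have h' : (1 - σB) (⟨x.1, x.2.1⟩ : erange D) = 0 := by
        apply Subtype.ext
        exact h
      exact h'
  have b2 : (erange (1 - σB)).index = ((erange D).map D).relIndex (erange D) := by
    rw [AddSubgroup.relIndex]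
    congr 1
    ext x
    simp only [AddSubgroup.mem_addSubgroupOf, AddSubgroup.mem_map]
    constructor
    · rintro ⟨y, rfl⟩
      exact ⟨y.1, y.2, rfl⟩
    · rintro ⟨y, hy, hxy⟩
      exact ⟨⟨y, hy⟩, by ext; exact hxy⟩
  rw [b1, b2] at E2
  have c1 : AddMonoidHom.ker (p : AddMonoid.End A) ⊓ eker D = eker D ⊓ eker (p : AddMonoid.End A) :=
    inf_comm _ _
  rw [c1] at E3
  change (erange (p : AddMonoid.End A)).index * _ * Nat.card (eker (p : AddMonoid.End (erange D))) =
    ((eker D).map (p : AddMonoid.End A)).relIndex (eker D) *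
      (erange (p : AddMonoid.End (erange D))).index * Nat.card (eker (p : AddMonoid.End A)) at E3
  -- now pure arithmetic
  have hg0 : Nat.card ↥(eker D ⊓ eker (p : AddMonoid.End A)) ≠ 0 := by
    have : Finite (eker (p : AddMonoid.End A)) := Nat.finite_of_card_ne_zero hker
    have : Finite ↥(eker D ⊓ eker (p : AddMonoid.End A)) :=
      Set.Finite.subset (Set.toFinite ((eker (p : AddMonoid.End A) : AddSubgroup A) : Set A))
        (fun x hx => hx.2)
    exact Nat.card_pos.ne'
  have hk0 : Nat.card ↥(erange D ⊓ eker D) ≠ 0 := by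
    rw [← b1]
    have : Finite (eker (1 - σB)) := by
      have : Finite (eker (p : AddMonoid.End (erange D))) := Nat.finite_of_card_ne_zero hkerB
      refine Set.Finite.subset
        (Set.toFinite ((eker (p : AddMonoid.End (erange D)) : AddSubgroup _) : Set (erange D))) ?_
      intro x hx
      have h1 := norm_apply_of_fixed p σB x hx
      have h2 : norm p σB = 0 := hσBsum
      rw [h2] at h1
      exact h1.symm
    exact Nat.card_pos.ne'
  generalize h0 p σ = H0 at *
  generalize h1 p σ = H1 at *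
  generalize Nat.card ↥(eker D ⊓ eker (p : AddMonoid.End A)) = G at *
  generalize Nat.card ↥(erange D ⊓ eker D) = k at *
  generalize (erange (p : AddMonoid.End A)).index = PA at *
  generalize ((eker D).map (p : AddMonoid.End A)).relIndex (eker D) = I at *
  generalize ((erange D).map D).relIndex (erange D) = iB at *
  generalize Nat.card (eker (p : AddMonoid.End (erange D))) = b at *
  generalize Nat.card (eker (p : AddMonoid.End A)) = a at *
  generalize (erange (p : AddMonoid.End (erange D))).index = PB at *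
  have hlhs : PA * G * b ≠ 0 := mul_ne_zero (mul_ne_zero hidx hg0) hkerB
  have hPB : PB ≠ 0 := by
    rintro rfl
    rw [E3] at hlhs
    simp at hlhs
  have hI : I ≠ 0 := by
    rintro rfl
    rw [E3] at hlhs
    simp at hlhs
  have hiB : iB ≠ 0 := by
    rintro rfl
    have : p - 1 ≠ 0 := by have := hp.two_le; omega
    rw [zero_pow this, zero_mul] at E2
    exact (mul_ne_zero hPB (pow_ne_zero _ hk0)) E2
  obtain ⟨q, rfl⟩ : ∃ q, p = q + 1 := ⟨p - 1, by have := hp.pos; omega⟩
  simp only [Nat.add_sub_cancel] at *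
  have key : H0 ^ q * G ^ (q + 1) * PA = H1 ^ q * I ^ (q + 1) * a := by
    refine Nat.eq_of_mul_eq_mul_right
      (Nat.pos_of_ne_zero (mul_ne_zero hPB (pow_ne_zero q hk0))) ?_
    calc H0 ^ q * G ^ (q + 1) * PA * (PB * k ^ q)
        = (H0 * iB * G) ^ q * (PA * G * b) := by rw [E2]; ring
      _ = (H1 * k * I) ^ q * (I * PB * a) := by rw [E1, E3]
      _ = _ := by ring
  have hH0 : H0 ≠ 0 := by
    rintro rfl
    exact hI (Nat.eq_zero_of_zero_dvd Edvd)
  refine ⟨key, hH0, ?_, hI⟩
  rintro rfl
  rw [zero_mul, zero_mul] at E1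
  exact (mul_ne_zero (mul_ne_zero hH0 hiB) hg0) E1

end Prime

end Fermat.Agent.CFT.Chevalley
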