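import Mathlib.LinearAlgebra.Matrix.Gershgorin
import Mathlib.LinearAlgebra.Dimension.Torsion.Finite
import Mathlib.LinearAlgebra.Finsupp.LinearCombination
import Mathlib.Algebra.Module.ZMod
import Mathlib.Algebra.Order.Archimedean.Real.Basic
import Mathlib.Tactic

/-!
# Equivariant approximation lemma (Lang, ANT IX §4)

If a finitely generated abelian group `A` with an action of a finite group `G` has an equivariant
"logarithm" `Λ : A → ℝ^P` (`P` a finite `G`-set) whose image spans, then there is a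
`G`-equivariant family `y : P → A` with `det (Λ (y i) j) ≠ 0`.
-/

set_option autoImplicit false

namespace Fermat.Agent.CFT.EqUnits

open Finset

section Lang

variable {G A P : Type*} [Group G] [Fintype G] [AddCommGroup A] [DistribMulAction G A]
  [Fintype P] [DecidableEq P] [MulAction G P]

omit [Fintype P] [DecidableEq P] in
/-- Integral approximation of multiples of a vector in the real span. -/
lemma exists_approx (Λ : A →+ (P → ℝ)) (v : P → ℝ)
    (hv : v ∈ Submodule.span ℝ (Set.range Λ)) :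
    ∃ b : P → ℝ, ∀ t : ℕ, ∃ a : A, ∀ j, |Λ a j - t * v j| ≤ b j := by
  obtain ⟨c, hc⟩ := (Finsupp.mem_span_range_iff_exists_finsupp).mp hv
  refine ⟨fun j => ∑ a ∈ c.support, |Λ a j|, fun t => ⟨∑ a ∈ c.support, ⌊t * c a⌋ • a, fun j => ?_⟩⟩
  have h1 : Λ (∑ a ∈ c.support, ⌊t * c a⌋ • a) j = ∑ a ∈ c.support, (⌊t * c a⌋ : ℝ) * Λ a j := by
    rw [map_sum, Finset.sum_apply]
    refine Finset.sum_congr rfl fun a _ => ?_
    rw [map_zsmul, Pi.smul_apply, zsmul_eq_mul]
  have h2 : (t : ℝ) * v j = ∑ a ∈ c.support, (t * c a) * Λ a j := by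
    rw [← hc, Finsupp.sum, Finset.sum_apply, Finset.mul_sum]
    refine Finset.sum_congr rfl fun a _ => ?_
    rw [Pi.smul_apply, smul_eq_mul, mul_assoc]
  rw [h1, h2, ← Finset.sum_sub_distrib]
  refine (Finset.abs_sum_le_sum_abs _ _).trans (Finset.sum_le_sum fun a _ => ?_)
  rw [← sub_mul, abs_mul]
  refine mul_le_of_le_one_left (abs_nonneg _) ?_
  rw [abs_sub_comm]
  change |Int.fract (t * c a)| ≤ 1
  rw [abs_of_nonneg (Int.fract_nonneg (t * c a))]
  exact (Int.fract_lt_one _).le

/-- **Lang's lemma**: existence of an equivariant independent family. -/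
theorem exists_equivariant_family (Λ : A →+ (P → ℝ))
    (hΛ : ∀ (g : G) (a : A) (i : P), Λ (g • a) (g • i) = Λ a i)
    (hspan : Submodule.span ℝ (Set.range Λ) = ⊤) :
    ∃ y : P → A, (∀ (g : G) (i : P), y (g • i) = g • y i) ∧
      (Matrix.of fun i j => Λ (y i) j).det ≠ 0 := by
  choose b hb using fun i : P => exists_approx Λ (Pi.single i 1) (by rw [hspan]; trivial)
  -- a uniform bound
  set B : ℝ := ∑ i, ∑ j, |b i j| with hB
  have hbB : ∀ i j, b i j ≤ B := fun i j =>
    (le_abs_self _).trans ((Finset.single_le_sum (f := fun j => |b i j|)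
      (fun _ _ => abs_nonneg _) (Finset.mem_univ j)).trans
      (Finset.single_le_sum (f := fun i => ∑ j, |b i j|)
        (fun _ _ => Finset.sum_nonneg fun _ _ => abs_nonneg _) (Finset.mem_univ i)))
  obtain ⟨t, ht⟩ := exists_nat_gt ((Fintype.card P : ℝ) * B)
  choose z hz using fun i => hb i t
  have hz' : ∀ i j, |Λ (z i) j - t * (Pi.single i 1 : P → ℝ) j| ≤ B := fun i j =>
    (hz i j).trans (hbB i j)
  refine ⟨fun i => ∑ g : G, g • z (g⁻¹ • i), ?_, ?_⟩
  · intro h i
    rw [Finset.smul_sum]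
    refine Fintype.sum_equiv (Equiv.mulLeft h⁻¹) _ _ fun g => ?_
    change g • z (g⁻¹ • h • i) = h • (h⁻¹ * g) • z ((h⁻¹ * g)⁻¹ • i)
    rw [smul_smul h, mul_inv_cancel_left, mul_inv_rev, inv_inv, smul_smul]
  · -- the estimate
    have hG : (0 : ℝ) < Fintype.card G := by exact_mod_cast Fintype.card_pos
    have hest : ∀ i j, |Λ (∑ g : G, g • z (g⁻¹ • i)) j -
        Fintype.card G * (t * (Pi.single i 1 : P → ℝ) j)| ≤ Fintype.card G * B := by
      intro i j
      have h1 : Λ (∑ g : G, g • z (g⁻¹ • i)) j = ∑ g : G, Λ (z (g⁻¹ • i)) (g⁻¹ • j) := by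
        rw [map_sum, Finset.sum_apply]
        refine Finset.sum_congr rfl fun g _ => ?_
        rw [← hΛ g (z (g⁻¹ • i)) (g⁻¹ • j), smul_inv_smul]
      have h2 : (Fintype.card G : ℝ) * (t * (Pi.single i 1 : P → ℝ) j) =
          ∑ g : G, t * (Pi.single (g⁻¹ • i) 1 : P → ℝ) (g⁻¹ • j) := by
        rw [Finset.sum_congr rfl (g := fun _ => t * (Pi.single i 1 : P → ℝ) j), Finset.sum_const,
          Finset.card_univ, nsmul_eq_mul]
        intro g _
        congr 1
        by_cases hij : j = i
        · subst hij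
          rw [Pi.single_eq_same, Pi.single_eq_same]
        · rw [Pi.single_eq_of_ne hij, Pi.single_eq_of_ne]
          intro h
          exact hij (smul_left_cancel _ h)
      rw [h1, h2, ← Finset.sum_sub_distrib]
      refine (Finset.abs_sum_le_sum_abs _ _).trans ?_
      refine (Finset.sum_le_sum fun g _ => hz' (g⁻¹ • i) (g⁻¹ • j)).trans ?_
      rw [Finset.sum_const, Finset.card_univ, nsmul_eq_mul]
    apply det_ne_zero_of_sum_row_lt_diag
    intro i
    have hoff : ∀ j ∈ univ.erase i, ‖(Matrix.of fun i j =>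
        Λ (∑ g : G, g • z (g⁻¹ • i)) j) i j‖ ≤ Fintype.card G * B := by
      intro j hj
      have h := hest i j
      rw [Pi.single_eq_of_ne (Finset.ne_of_mem_erase hj), mul_zero, mul_zero, sub_zero] at h
      exact h
    have hdiag : Fintype.card G * (t : ℝ) - Fintype.card G * B ≤ ‖(Matrix.of fun i j =>
        Λ (∑ g : G, g • z (g⁻¹ • i)) j) i i‖ := by
      have h := hest i i
      rw [Pi.single_eq_same, mul_one] at h
      rw [Matrix.of_apply, Real.norm_eq_abs]
      have h2 := neg_abs_le (Λ (∑ g : G, g • z (g⁻¹ • i)) i - Fintype.card G * t)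
      have h3 := le_abs_self (Λ (∑ g : G, g • z (g⁻¹ • i)) i)
      linarith
    refine lt_of_le_of_lt (Finset.sum_le_sum hoff) (lt_of_lt_of_le ?_ hdiag)
    rw [Finset.sum_const, Finset.card_erase_of_mem (Finset.mem_univ i), Finset.card_univ,
      nsmul_eq_mul]
    have hP : 1 ≤ Fintype.card P := Fintype.card_pos_iff.mpr ⟨i⟩
    rw [Nat.cast_sub hP, Nat.cast_one]
    nlinarith

end Lang

end Fermat.Agent.CFT.EqUnits
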