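import Fermat.Agent.CFT.SExt
import Fermat.Agent.CFT.EqLattice
import Mathlib.NumberTheory.NumberField.InfinitePlace.Ramification

/-!
# The equivariant S-unit theorem

For a finite group `G = Gal(L/K)` of automorphisms of a number field `L` and a `G`-stable finite
set `T` of primes of `L`, there is a `G`-equivariant family
`y : InfinitePlace L ⊕ T → U_T × ℤ` which is linearly independent over `ℤ`, i.e. an isogeny
`ℤ[S_∞ ⊔ T] → U_T × ℤ` of `ℤ[G]`-modules.
-/

set_option autoImplicit false

namespace Fermat.Agent.CFT.EqUnits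

open IsDedekindDomain NumberField Fermat.Agent.CFT.SUnits
open NumberField.InfinitePlace NumberField.Units NumberField.Units.dirichletUnitTheorem

section Log

variable {L : Type*} [Field L] [NumberField L] (T : Finset (HeightOneSpectrum (𝓞 L)))

/-- The group of `T`-units. -/
noncomputable abbrev UT : Subgroup Lˣ := (T : Set (HeightOneSpectrum (𝓞 L))).unit L

/-- The index set: archimedean places and primes of `T`. -/
abbrev Pl : Type _ := InfinitePlace L ⊕ T

/-- The full logarithmic vector. -/
noncomputable def Lam : Additive (UT T) × ℤ →+ (Pl T → ℝ) where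
  toFun x := Sum.elim
    (fun w => (mult w : ℝ) * Real.log (w ((x.1.toMul : Lˣ) : L)) + x.2)
    (fun v => (ord (v : HeightOneSpectrum (𝓞 L)) (x.1.toMul : Lˣ) : ℝ))
  map_zero' := by
    funext i
    rcases i with w | v
    · simp
    · simp
  map_add' x y := by
    funext i
    rcases i with w | v
    · have hx : w ((x.1.toMul : Lˣ) : L) ≠ 0 := by
        rw [Ne, map_eq_zero]
        exact (x.1.toMul : Lˣ).ne_zero
      have hy : w ((y.1.toMul : Lˣ) : L) ≠ 0 := by
        rw [Ne, map_eq_zero]
        exact (y.1.toMul : Lˣ).ne_zero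
      simp only [Sum.elim_inl, Pi.add_apply, Prod.fst_add, Prod.snd_add, toMul_add,
        Subgroup.coe_mul, Units.val_mul, map_mul, Real.log_mul hx hy, Int.cast_add]
      ring
    · simp only [Sum.elim_inr, Pi.add_apply, Prod.fst_add, toMul_add, Subgroup.coe_mul, ord_mul,
        Int.cast_add]

lemma Lam_inl (x : Additive (UT T) × ℤ) (w : InfinitePlace L) :
    Lam T x (Sum.inl w) = (mult w : ℝ) * Real.log (w ((x.1.toMul : Lˣ) : L)) + x.2 := rfl

lemma Lam_inr (x : Additive (UT T) × ℤ) (v : T) :
    Lam T x (Sum.inr v) = (ord (v : HeightOneSpectrum (𝓞 L)) (x.1.toMul : Lˣ) : ℝ) := rfl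

open Classical in
/-- The inclusion of the log space as the trace zero vectors. -/
noncomputable def iota : logSpace L →ₗ[ℝ] (Pl T → ℝ) where
  toFun x := Sum.elim (fun w => if h : w ≠ w₀ then x ⟨w, h⟩ else - ∑ i, x i) (fun _ => 0)
  map_add' x y := by
    funext i
    rcases i with w | v
    · simp only [Sum.elim_inl, Pi.add_apply]
      split_ifs
      · rfl
      · rw [Finset.sum_add_distrib, neg_add]
    · simp
  map_smul' c x := by
    funext i
    rcases i with w | v
    · simp only [Sum.elim_inl, Pi.smul_apply, smul_eq_mul, RingHom.id_apply]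
      split_ifs
      · rfl
      · rw [← Finset.mul_sum, mul_neg]
    · simp

lemma Lam_units (u : (𝓞 L)ˣ) :
    Lam T (Additive.ofMul (unitsToSUnits T u), 0) = iota T (logEmbedding L (Additive.ofMul u)) := by
  classical
  funext i
  rcases i with w | v
  · rw [Lam_inl]
    have h0 : ((((Additive.ofMul (unitsToSUnits T u), (0 : ℤ)).1.toMul : UT T) : Lˣ) : L) =
        (u : L) := rfl
    rw [h0, Int.cast_zero, add_zero]
    change _ = if h : w ≠ w₀ then logEmbedding L (Additive.ofMul u) ⟨w, h⟩ else
      - ∑ i, logEmbedding L (Additive.ofMul u) i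
    split_ifs with h
    · rfl
    · rw [sum_logEmbedding_component]
      have hw : w = w₀ := not_not.mp h
      rw [hw]
      ring
  · have h1 := (div_eq_zero_iff L (R := 𝓞 L) _).mpr ⟨u, rfl⟩
    rw [Lam_inr]
    change ((ord (v : HeightOneSpectrum (𝓞 L)) (Units.map (algebraMap (𝓞 L) L : 𝓞 L →* L) u) : ℤ)
      : ℝ) = 0
    rw [← div_apply, h1]
    simp

/-- The logarithmic vectors span. -/
theorem span_Lam : Submodule.span ℝ (Set.range (Lam T)) = ⊤ := by
  classical
  set W := Submodule.span ℝ (Set.range (Lam T)) with hW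
  have h1 : ∀ x, iota T x ∈ W := by
    intro x
    have hx : x ∈ Submodule.span ℝ (unitLattice L : Set (logSpace L)) := by
      rw [unitLattice_span_eq_top]
      trivial
    have h2 : Submodule.span ℝ (unitLattice L : Set (logSpace L)) ≤ W.comap (iota T) := by
      rw [Submodule.span_le]
      rintro _ ⟨u, -, rfl⟩
      rw [SetLike.mem_coe, Submodule.mem_comap]
      have h3 := Lam_units T u.toMul
      rw [ofMul_toMul] at h3
      have h4 : iota T ((logEmbedding L).toIntLinearMap u) = Lam T
          (Additive.ofMul (unitsToSUnits T u.toMul), 0) := h3.symm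
      rw [h4]
      exact Submodule.subset_span ⟨_, rfl⟩
    exact h2 hx
  -- differences of archimedean basis vectors
  have h2 : ∀ w : InfinitePlace L, (Pi.single (Sum.inl w) 1 : Pl T → ℝ) -
      Pi.single (Sum.inl w₀) 1 ∈ W := by
    intro w
    by_cases hw : w = w₀
    · rw [hw, sub_self]
      exact zero_mem _
    · have h3 := h1 (Pi.single ⟨w, hw⟩ 1)
      convert h3 using 1
      funext i
      rcases i with w' | v
      · change _ = if h : w' ≠ w₀ then (Pi.single ⟨w, hw⟩ 1 : logSpace L) ⟨w', h⟩ else
          - ∑ i, (Pi.single ⟨w, hw⟩ 1 : logSpace L) i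
        rw [Finset.sum_pi_single']
        rw [Pi.sub_apply]
        split_ifs with h h'
        · rw [Pi.single_eq_of_ne (i := Sum.inl w₀) (by simpa using h), sub_zero]
          by_cases hww' : w' = w
          · subst hww'
            rw [Pi.single_eq_same, Pi.single_eq_same]
          · rw [Pi.single_eq_of_ne (by simpa using hww'),
              Pi.single_eq_of_ne (fun hh => hww' (congrArg Subtype.val hh))]
        · have hw' : w' = w₀ := not_not.mp h
          subst hw'
          rw [Pi.single_eq_same, Pi.single_eq_of_ne (by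
            intro hh
            exact hw (Sum.inl.inj hh).symm)]
          simp
        · simp at h'
      · change _ = (0 : ℝ)
        rw [Pi.sub_apply, Pi.single_eq_of_ne (by simp), Pi.single_eq_of_ne (by simp), sub_zero]
  -- the all-one vector
  have h3 : (∑ w : InfinitePlace L, Pi.single (Sum.inl w) 1 : Pl T → ℝ) ∈ W := by
    have h4 : (∑ w : InfinitePlace L, Pi.single (Sum.inl w) 1 : Pl T → ℝ) = Lam T (0, 1) := by
      funext i
      rw [Finset.sum_apply]
      rcases i with w' | v
      · rw [Lam_inl, Finset.sum_eq_single w']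
        · simp
        · intro b _ hb
          rw [Pi.single_eq_of_ne]
          intro hh
          exact hb (Sum.inl.inj hh).symm
        · intro hh
          exact absurd (Finset.mem_univ _) hh
      · rw [Lam_inr, Finset.sum_eq_zero]
        · simp
        · intro w _
          rw [Pi.single_eq_of_ne (by simp)]
    rw [h4]
    exact Submodule.subset_span ⟨_, rfl⟩
  have h4 : (Pi.single (Sum.inl w₀) 1 : Pl T → ℝ) ∈ W := by
    have h5 : (∑ w : InfinitePlace L, ((Pi.single (Sum.inl w) 1 : Pl T → ℝ) -
        Pi.single (Sum.inl w₀) 1)) ∈ W := Submodule.sum_mem _ fun w _ => h2 w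
    rw [Finset.sum_sub_distrib, Finset.sum_const, Finset.card_univ] at h5
    have h6 := W.sub_mem h3 h5
    rw [sub_sub_cancel, ← Nat.cast_smul_eq_nsmul ℝ] at h6
    have hne : (Fintype.card (InfinitePlace L) : ℝ) ≠ 0 := by
      exact_mod_cast Fintype.card_ne_zero
    have h7 := W.smul_mem (Fintype.card (InfinitePlace L) : ℝ)⁻¹ h6
    rwa [smul_smul, inv_mul_cancel₀ hne, one_smul] at h7
  have h5 : ∀ w : InfinitePlace L, (Pi.single (Sum.inl w) 1 : Pl T → ℝ) ∈ W := by
    intro w
    have := W.add_mem (h2 w) h4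
    rwa [sub_add_cancel] at this
  -- the finite places
  have h6 : ∀ v : T, (Pi.single (Sum.inr v) 1 : Pl T → ℝ) ∈ W := by
    intro v
    obtain ⟨x, hx⟩ := exists_div_eq_single L (v : HeightOneSpectrum (𝓞 L))
    have hxT : x ∈ UT T := by
      rw [mem_unit_iff]
      intro v' hv'
      rw [← div_apply, hx, Finsupp.single_eq_of_ne]
      rintro rfl
      exact hv' v.2
    have h7 : Lam T (Additive.ofMul ⟨x, hxT⟩, 0) ∈ W := Submodule.subset_span ⟨_, rfl⟩
    have h8 : Lam T (Additive.ofMul ⟨x, hxT⟩, 0) =
        ∑ w : InfinitePlace L, (Lam T (Additive.ofMul ⟨x, hxT⟩, 0) (Sum.inl w)) •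
          (Pi.single (Sum.inl w) 1 : Pl T → ℝ) +
        (classNumber L : ℝ) • (Pi.single (Sum.inr v) 1 : Pl T → ℝ) := by
      funext i
      rw [Pi.add_apply, Finset.sum_apply, Pi.smul_apply]
      rcases i with w' | v'
      · rw [Pi.single_eq_of_ne (by simp), smul_zero, add_zero, Finset.sum_eq_single w']
        · rw [Pi.smul_apply, Pi.single_eq_same, smul_eq_mul, mul_one]
        · intro b _ hb
          rw [Pi.smul_apply, Pi.single_eq_of_ne, smul_zero]
          intro hh
          exact hb (Sum.inl.inj hh).symm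
        · intro hh
          exact absurd (Finset.mem_univ _) hh
      · rw [Finset.sum_eq_zero, zero_add]
        · rw [Lam_inr]
          change ((ord (v' : HeightOneSpectrum (𝓞 L)) x : ℤ) : ℝ) = _
          rw [← div_apply, hx]
          by_cases hvv' : v' = v
          · subst hvv'
            simp
          · rw [Finsupp.single_eq_of_ne (fun hh => hvv' (Subtype.ext hh)),
              Pi.single_eq_of_ne (fun hh => hvv' (Sum.inr.inj hh))]
            simp
        · intro w _
          rw [Pi.smul_apply, Pi.single_eq_of_ne (by simp), smul_zero]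
    rw [h8] at h7
    have h9 := (W.add_mem_iff_right (Submodule.sum_mem _ fun w _ => W.smul_mem _ (h5 w))).mp h7
    have hne : (classNumber L : ℝ) ≠ 0 := by exact_mod_cast classNumber_ne_zero L
    have h10 := W.smul_mem (classNumber L : ℝ)⁻¹ h9
    rwa [smul_smul, inv_mul_cancel₀ hne, one_smul] at h10
  rw [eq_top_iff]
  intro x _
  have hx : x = ∑ i, x i • (Pi.single i 1 : Pl T → ℝ) := by
    funext j
    rw [Finset.sum_apply, Finset.sum_eq_single j]
    · simp
    · intro b _ hb
      rw [Pi.smul_apply, Pi.single_eq_of_ne hb.symm, smul_zero]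
    · intro hh
      exact absurd (Finset.mem_univ _) hh
  rw [hx]
  refine Submodule.sum_mem _ fun i _ => W.smul_mem _ ?_
  rcases i with w | v
  · exact h5 w
  · exact h6 v

end Log

section Galois

variable {K L : Type*} [Field K] [Field L] [NumberField L] [Algebra K L]
  (T : Finset (HeightOneSpectrum (𝓞 L)))

/-- `T` is stable under `Gal(L/K)`. -/
def Stable (K : Type*) {L : Type*} [Field K] [Field L] [NumberField L] [Algebra K L]
    (T : Finset (HeightOneSpectrum (𝓞 L))) : Prop :=
  ∀ (σ : Gal(L/K)) (w : HeightOneSpectrum (𝓞 L)), w ∈ T → σ • w ∈ T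

variable {T}

lemma Stable.iff (hT : Stable K T) (σ : Gal(L/K)) (w : HeightOneSpectrum (𝓞 L)) :
    σ • w ∈ T ↔ w ∈ T := by
  refine ⟨fun h => ?_, hT σ w⟩
  have := hT σ⁻¹ _ h
  rwa [inv_smul_smul] at this

lemma Stable.galU_mem (hT : Stable K T) (σ : Gal(L/K)) {x : Lˣ} (hx : x ∈ UT T) :
    galU σ x ∈ UT T := by
  rw [mem_unit_iff] at hx ⊢
  intro w hw
  rw [ord_galU]
  apply hx
  rwa [hT.iff]

/-- The Galois action on `T`-units. -/
noncomputable def galT (hT : Stable K T) (σ : Gal(L/K)) : UT T →* UT T where
  toFun x := ⟨galU σ x, hT.galU_mem σ x.2⟩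
  map_one' := by
    apply Subtype.ext
    exact map_one (galU σ)
  map_mul' x y := by
    apply Subtype.ext
    exact map_mul (galU σ) _ _

@[simp] lemma coe_galT (hT : Stable K T) (σ : Gal(L/K)) (x : UT T) :
    ((galT hT σ x : UT T) : Lˣ) = galU σ x := rfl

lemma galT_one (hT : Stable K T) (x : UT T) : galT hT 1 x = x := rfl

lemma galT_mul (hT : Stable K T) (σ τ : Gal(L/K)) (x : UT T) :
    galT hT (σ * τ) x = galT hT σ (galT hT τ x) := rfl

/-- The action on the places in `S_∞ ⊔ T`. -/
noncomputable def galPl (hT : Stable K T) (σ : Gal(L/K)) : Pl T → Pl T :=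
  Sum.map (fun w => σ • w) (fun v => ⟨σ • (v : HeightOneSpectrum (𝓞 L)), hT σ _ v.2⟩)

@[simp] lemma galPl_inl (hT : Stable K T) (σ : Gal(L/K)) (w : InfinitePlace L) :
    galPl hT σ (Sum.inl w) = Sum.inl (σ • w) := rfl

@[simp] lemma galPl_inr (hT : Stable K T) (σ : Gal(L/K)) (v : T) :
    galPl hT σ (Sum.inr v) = Sum.inr ⟨σ • (v : HeightOneSpectrum (𝓞 L)), hT σ _ v.2⟩ := rfl

omit [NumberField L] in
lemma mult_smul (σ : Gal(L/K)) (w : InfinitePlace L) : mult (σ • w) = mult w := by
  have h : IsReal (σ • w) ↔ IsReal w := isReal_smul_iff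
  unfold mult
  by_cases hw : IsReal w
  · rw [if_pos hw, if_pos (h.mpr hw)]
  · rw [if_neg hw, if_neg (fun h' => hw (h.mp h'))]

lemma Lam_gal (hT : Stable K T) (σ : Gal(L/K)) (x : Additive (UT T) × ℤ) (i : Pl T) :
    Lam T (Additive.ofMul (galT hT σ x.1.toMul), x.2) (galPl hT σ i) = Lam T x i := by
  rcases i with w | v
  · rw [galPl_inl, Lam_inl, Lam_inl, mult_smul]
    congr 3
    change (σ • w) (σ ((x.1.toMul : Lˣ) : L)) = _
    rw [InfinitePlace.smul_apply]
    congr 1
    exact σ.symm_apply_apply _
  · rw [galPl_inr, Lam_inr, Lam_inr]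
    exact congrArg Int.cast (ord_smul σ _ _)

/-- The module structure on `U_T × ℤ`. -/
noncomputable abbrev actA (hT : Stable K T) :
    DistribMulAction Gal(L/K) (Additive (UT T) × ℤ) where
  smul σ x := (Additive.ofMul (galT hT σ x.1.toMul), x.2)
  one_smul _ := rfl
  mul_smul _ _ _ := rfl
  smul_zero σ := Prod.ext (congrArg Additive.ofMul (map_one (galT hT σ))) rfl
  smul_add σ _ _ := Prod.ext (congrArg Additive.ofMul (map_mul (galT hT σ) _ _)) rfl

/-- The permutation action on `S_∞ ⊔ T`. -/
noncomputable abbrev actPl (hT : Stable K T) : MulAction Gal(L/K) (Pl T) where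
  smul σ i := galPl hT σ i
  one_smul i := by
    change galPl hT 1 i = i
    rcases i with w | v
    · rw [galPl_inl, one_smul]
    · rw [galPl_inr]
      congr 1
      exact Subtype.ext (one_smul _ _)
  mul_smul σ τ i := by
    change galPl hT (σ * τ) i = galPl hT σ (galPl hT τ i)
    rcases i with w | v
    · rw [galPl_inl, galPl_inl, galPl_inl, mul_smul]
    · rw [galPl_inr, galPl_inr, galPl_inr]
      congr 1
      exact Subtype.ext (mul_smul _ _ _)

/-- **Equivariant S-unit theorem.** There is an equivariant, `ℤ`-linearly independent family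
of elements of `U_T × ℤ` indexed by `S_∞ ⊔ T`. -/
theorem exists_equivariant_units [FiniteDimensional K L] (hT : Stable K T) :
    ∃ y : Pl T → Additive (UT T) × ℤ,
      (∀ (σ : Gal(L/K)) (i : Pl T),
        y (galPl hT σ i) = (Additive.ofMul (galT hT σ (y i).1.toMul), (y i).2)) ∧
      LinearIndependent ℤ y := by
  classical
  let : DistribMulAction Gal(L/K) (Additive (UT T) × ℤ) := actA hT
  let : MulAction Gal(L/K) (Pl T) := actPl hT
  obtain ⟨y, hy, hdet⟩ := exists_equivariant_family (G := Gal(L/K)) (Lam T)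
    (fun σ x i => Lam_gal hT σ x i) (span_Lam T)
  refine ⟨y, hy, ?_⟩
  have h1 : LinearIndependent ℝ (fun i => (Lam T (y i) : Pl T → ℝ)) := by
    have := Matrix.linearIndependent_rows_of_det_ne_zero hdet
    exact this
  have h2 : LinearIndependent ℤ (fun i => (Lam T (y i) : Pl T → ℝ)) :=
    h1.restrict_scalars (by
      intro a b hab
      simpa using hab)
  exact LinearIndependent.of_comp (Lam T).toIntLinearMap h2

variable (T) in
lemma finrank_unitsProd : Module.finrank ℤ (Additive (UT T) × ℤ) = Fintype.card (Pl T) := by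
  have h1 := (LinearMap.ker (LinearMap.snd ℤ (Additive (UT T)) ℤ)).finrank_quotient_add_finrank
  have h2 : Module.finrank ℤ ((Additive (UT T) × ℤ) ⧸
      LinearMap.ker (LinearMap.snd ℤ (Additive (UT T)) ℤ)) = 1 := by
    rw [(LinearMap.quotKerEquivOfSurjective _ LinearMap.snd_surjective).finrank_eq,
      Module.finrank_self]
  have h3 : Module.finrank ℤ (LinearMap.ker (LinearMap.snd ℤ (Additive (UT T)) ℤ)) =
      Units.rank L + T.card := by
    rw [LinearMap.ker_snd, LinearMap.finrank_range_of_inj LinearMap.inl_injective, finrank_sunits]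
  rw [h2, h3] at h1
  rw [← h1, Fintype.card_sum, Fintype.card_coe, ← rank_add_one_eq]
  ring

end Galois

end Fermat.Agent.CFT.EqUnits
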