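import Fermat.Agent.CFT.SUnits

/-!
# S-units and S-class groups: counting `p`-th powers
-/

set_option autoImplicit false

namespace Fermat.Agent.CFT.SUnits

open IsDedekindDomain NumberField WithZero
open scoped nonZeroDivisors

section Torsion

lemma card_rootsOfUnity_of_isPrimitiveRoot {K : Type*} [Field K] {n : ℕ} (hn : n ≠ 0) {ζ : K}
    (hζ : IsPrimitiveRoot ζ n) : Nat.card (rootsOfUnity n K) = n := by
  have : NeZero n := ⟨hn⟩
  exact hζ.card_rootsOfUnity

variable {K : Type*} [Field K] [NumberField K] (S : Finset (HeightOneSpectrum (𝓞 K)))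

lemma mem_unit_of_pow_eq_one {n : ℕ} (hn : n ≠ 0) {x : Kˣ} (hx : x ^ n = 1) :
    x ∈ (S : Set (HeightOneSpectrum (𝓞 K))).unit K := by
  rw [mem_unit_iff]
  intro v _
  have h := congrArg (ord v) hx
  rw [ord_pow, ord_one] at h
  rcases mul_eq_zero.mp h with h | h
  · exact absurd (by exact_mod_cast h) hn
  · exact h

/-- The `n`-torsion of the group of `S`-units is the group of `n`-th roots of unity. -/
lemma card_ker_pow_sunits {n : ℕ} (hn : n ≠ 0) :
    Nat.card (powMonoidHom n : (S : Set (HeightOneSpectrum (𝓞 K))).unit K →*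
      (S : Set (HeightOneSpectrum (𝓞 K))).unit K).ker = Nat.card (rootsOfUnity n K) := by
  refine Nat.card_congr
    { toFun := fun x => ⟨(x : (S : Set (HeightOneSpectrum (𝓞 K))).unit K), ?_⟩
      invFun := fun x => ⟨⟨x, mem_unit_of_pow_eq_one S hn x.2⟩, ?_⟩
      left_inv := fun x => rfl
      right_inv := fun x => rfl }
  · have h := congrArg Subtype.val (MonoidHom.mem_ker.mp x.2)
    exact h
  · rw [MonoidHom.mem_ker]
    exact Subtype.ext x.2

/-- `|U_S / U_S^n| = n^(rank + #S) * |μ_n(K)|`. -/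
theorem index_pow_sunits {n : ℕ} (hn : n ≠ 0) :
    (powMonoidHom n : (S : Set (HeightOneSpectrum (𝓞 K))).unit K →*
      (S : Set (HeightOneSpectrum (𝓞 K))).unit K).range.index =
        n ^ (Units.rank K + S.card) * Nat.card (rootsOfUnity n K) := by
  rw [AbCount.index_range_pow n hn, finrank_sunits, card_ker_pow_sunits S hn]

/-- If `μ_n ⊆ K`, then `|U_S / U_S^n| = n^(rank + 1 + #S)`. -/
theorem index_pow_sunits_of_isPrimitiveRoot {n : ℕ} (hn : n ≠ 0) {ζ : K}
    (hζ : IsPrimitiveRoot ζ n) :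
    (powMonoidHom n : (S : Set (HeightOneSpectrum (𝓞 K))).unit K →*
      (S : Set (HeightOneSpectrum (𝓞 K))).unit K).range.index =
        n ^ (Units.rank K + 1 + S.card) := by
  rw [index_pow_sunits S hn, card_rootsOfUnity_of_isPrimitiveRoot hn hζ]
  ring

lemma rank_add_one_eq : Units.rank K + 1 = Fintype.card (InfinitePlace K) := by
  have := Fintype.card_pos (α := InfinitePlace K)
  rw [Units.rank]
  omega

/-- A number field with a primitive `n`-th root of unity, `n > 2`, has no real places. -/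
lemma nrRealPlaces_eq_zero {n : ℕ} (hn : 2 < n) {ζ : K} (hζ : IsPrimitiveRoot ζ n) :
    InfinitePlace.nrRealPlaces K = 0 :=
  _root_.NumberField.InfinitePlace.IsPrimitiveRoot.nrRealPlaces_eq_zero_of_two_lt hn hζ

lemma finrank_eq_two_mul {n : ℕ} (hn : 2 < n) {ζ : K} (hζ : IsPrimitiveRoot ζ n) :
    Module.finrank ℚ K = 2 * (Units.rank K + 1) := by
  have h1 := InfinitePlace.card_add_two_mul_card_eq_rank K
  have h2 := InfinitePlace.card_eq_nrRealPlaces_add_nrComplexPlaces K
  rw [nrRealPlaces_eq_zero hn hζ] at h1 h2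
  rw [rank_add_one_eq]
  omega

end Torsion

section SClass

variable {K : Type*} [Field K] [NumberField K] (S : Set (HeightOneSpectrum (𝓞 K)))

/-- Divisors supported outside `S`, multiplicatively. -/
abbrev DivOut : Type _ := Multiplicative ({v : HeightOneSpectrum (𝓞 K) // v ∉ S} →₀ ℤ)

/-- The divisor map outside `S`. -/
noncomputable def divOut : Kˣ →* DivOut S where
  toFun x := Multiplicative.ofAdd ((div x : HeightOneSpectrum (𝓞 K) →₀ ℤ).subtypeDomain (· ∉ S))
  map_one' := by
    rw [div_one]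
    rfl
  map_mul' x y := by
    rw [div_mul, Finsupp.subtypeDomain_add]
    rfl

lemma divOut_apply (x : Kˣ) (v : {v : HeightOneSpectrum (𝓞 K) // v ∉ S}) :
    (divOut S x).toAdd v = ord (v : HeightOneSpectrum (𝓞 K)) x := rfl

lemma mem_unit_iff' (x : Kˣ) : x ∈ S.unit K ↔ ∀ v ∉ S, ord v x = 0 := by
  simp only [ord_eq_zero_iff]
  rfl

lemma ker_divOut : (divOut S : Kˣ →* DivOut S).ker = S.unit K := by
  ext x
  rw [MonoidHom.mem_ker, mem_unit_iff']
  constructor
  · intro h v hv
    rw [← divOut_apply S x ⟨v, hv⟩, h]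
    rfl
  · intro h
    apply Multiplicative.toAdd.injective
    ext v
    exact h v v.2

/-- The class of a divisor. -/
noncomputable def classOf : Multiplicative (HeightOneSpectrum (𝓞 K) →₀ ℤ) →*
    ClassGroup (𝓞 K) where
  toFun D := ClassGroup.mk K (idealOf K D.toAdd)
  map_one' := by
    rw [toAdd_one, idealOf_zero, map_one]
  map_mul' D E := by
    rw [toAdd_mul, idealOf_add, map_mul]

lemma classOf_surjective : Function.Surjective (classOf (K := K)) := by
  intro c
  refine ClassGroup.induction K (fun I => ?_) c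
  obtain ⟨D, rfl⟩ := idealOf_surjective (R := 𝓞 K) (K := K) I
  exact ⟨Multiplicative.ofAdd D, rfl⟩

lemma classOf_eq_one_iff (D : Multiplicative (HeightOneSpectrum (𝓞 K) →₀ ℤ)) :
    classOf D = 1 ↔ ∃ x : Kˣ, div x = D.toAdd :=
  (exists_div_eq_iff K D.toAdd).symm

/-- The subgroup of the ideal class group generated by the primes of `S`. -/
noncomputable def classSubgroup : Subgroup (ClassGroup (𝓞 K)) :=
  Subgroup.closure ((fun v : HeightOneSpectrum (𝓞 K) =>
    classOf (Multiplicative.ofAdd (Finsupp.single v 1))) '' S)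

lemma mem_classSubgroup_iff (c : ClassGroup (𝓞 K)) :
    c ∈ classSubgroup S ↔ ∃ E : HeightOneSpectrum (𝓞 K) →₀ ℤ, (∀ v ∉ S, E v = 0) ∧
      classOf (Multiplicative.ofAdd E) = c := by
  constructor
  · intro hc
    induction hc using Subgroup.closure_induction with
    | mem x hx =>
      obtain ⟨v, hv, rfl⟩ := hx
      refine ⟨Finsupp.single v 1, fun w hw => ?_, rfl⟩
      rw [Finsupp.single_eq_of_ne]
      rintro rfl
      exact hw hv
    | one => exact ⟨0, fun _ _ => rfl, map_one _⟩
    | mul x y _ _ hx hy =>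
      obtain ⟨D, hD, rfl⟩ := hx
      obtain ⟨E, hE, rfl⟩ := hy
      refine ⟨D + E, fun v hv => ?_, ?_⟩
      · rw [Finsupp.add_apply, hD v hv, hE v hv, add_zero]
      · rw [ofAdd_add, map_mul]
    | inv x _ hx =>
      obtain ⟨D, hD, rfl⟩ := hx
      refine ⟨-D, fun v hv => ?_, ?_⟩
      · rw [Finsupp.neg_apply, hD v hv, neg_zero]
      · rw [ofAdd_neg, map_inv]
  · rintro ⟨E, hE, rfl⟩
    induction E using Finsupp.induction with
    | zero => 
      rw [ofAdd_zero, map_one]
      exact one_mem _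
    | single_add v n E hvE hn ih =>
      have hv : v ∈ S := by
        by_contra hv
        have := hE v hv
        rw [Finsupp.add_apply, Finsupp.single_eq_same, Finsupp.notMem_support_iff.mp hvE,
          add_zero] at this
        exact hn this
      have hE' : ∀ w ∉ S, E w = 0 := by
        intro w hw
        have := hE w hw
        rwa [Finsupp.add_apply, Finsupp.single_eq_of_ne (by rintro rfl; exact hw hv),
          zero_add] at this
      rw [ofAdd_add, map_mul]
      refine mul_mem ?_ (ih hE')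
      have h1 : Multiplicative.ofAdd (Finsupp.single v n) =
          (Multiplicative.ofAdd (Finsupp.single v (1 : ℤ))) ^ n := by
        rw [← ofAdd_zsmul, Finsupp.smul_single, smul_eq_mul, mul_one]
      have h2 : classOf (K := K) (Multiplicative.ofAdd (Finsupp.single v 1)) ∈
          classSubgroup S := Subgroup.subset_closure ⟨v, hv, rfl⟩
      rw [h1, map_zpow]
      exact zpow_mem h2 n

/-- The map from divisors outside `S` to the `S`-class group. -/
noncomputable def classOut : DivOut S →* ClassGroup (𝓞 K) ⧸ classSubgroup S :=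
  (QuotientGroup.mk' (classSubgroup S)).comp (classOf.comp
    (AddMonoidHom.toMultiplicative (Finsupp.mapDomain.addMonoidHom
      (Subtype.val : {v : HeightOneSpectrum (𝓞 K) // v ∉ S} → HeightOneSpectrum (𝓞 K)))))

omit [NumberField K] in
lemma mapDomain_val_apply_of_mem (D : {v : HeightOneSpectrum (𝓞 K) // v ∉ S} →₀ ℤ)
    {v : HeightOneSpectrum (𝓞 K)} (hv : v ∈ S) :
    Finsupp.mapDomain Subtype.val D v = 0 := by
  apply Finsupp.mapDomain_of_notMem_range
  rintro ⟨⟨w, hw⟩, rfl⟩
  exact hw hv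

lemma classOut_apply (D : DivOut S) :
    classOut S D = QuotientGroup.mk (classOf (Multiplicative.ofAdd
      (Finsupp.mapDomain Subtype.val D.toAdd))) := rfl

/-- If `E` agrees with `D` outside `S` then the class of `D` is the class of `E`. -/
lemma classOut_eq (D : DivOut S) (E : HeightOneSpectrum (𝓞 K) →₀ ℤ)
    (h : ∀ v : {v : HeightOneSpectrum (𝓞 K) // v ∉ S}, D.toAdd v = E v) :
    classOut S D = QuotientGroup.mk (classOf (Multiplicative.ofAdd E)) := by
  rw [classOut_apply, QuotientGroup.eq, ← map_inv, ← map_mul, ← ofAdd_neg, ← ofAdd_add,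
    mem_classSubgroup_iff]
  refine ⟨_, fun v hv => ?_, rfl⟩
  rw [Finsupp.add_apply, Finsupp.neg_apply, ← h ⟨v, hv⟩]
  have := Finsupp.mapDomain_apply (Subtype.val_injective)
    (D.toAdd) (⟨v, hv⟩ : {v : HeightOneSpectrum (𝓞 K) // v ∉ S})
  rw [this, neg_add_cancel]

lemma classOut_surjective : Function.Surjective (classOut S) := by
  intro c
  obtain ⟨c, rfl⟩ := QuotientGroup.mk_surjective c
  obtain ⟨E, rfl⟩ := classOf_surjective c
  exact ⟨Multiplicative.ofAdd (E.toAdd.subtypeDomain (· ∉ S)),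
    classOut_eq S _ E.toAdd fun v => rfl⟩

lemma classOut_eq_one_iff (D : DivOut S) :
    classOut S D = 1 ↔ ∃ x : Kˣ, divOut S x = D := by
  constructor
  · intro h
    rw [classOut_apply, QuotientGroup.eq_one_iff, mem_classSubgroup_iff] at h
    obtain ⟨E, hE, hED⟩ := h
    rw [eq_comm, ← div_eq_one, ← map_div, ← ofAdd_sub, classOf_eq_one_iff] at hED
    obtain ⟨x, hx⟩ := hED
    refine ⟨x, ?_⟩
    apply Multiplicative.toAdd.injective
    ext v
    rw [divOut_apply, ← div_apply, hx, toAdd_ofAdd, Finsupp.sub_apply, hE v v.2, sub_zero]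
    exact Finsupp.mapDomain_apply Subtype.val_injective _ _
  · rintro ⟨x, rfl⟩
    have h1 : classOf (K := K) (Multiplicative.ofAdd (div x)) = 1 :=
      (classOf_eq_one_iff _).mpr ⟨x, rfl⟩
    rw [classOut_eq S _ (div x) fun v => rfl, h1]
    rfl

lemma ker_classOut : (classOut S).ker = (divOut S : Kˣ →* DivOut S).range := by
  ext D
  rw [MonoidHom.mem_ker, classOut_eq_one_iff, MonoidHom.mem_range]

/-- The cokernel of the divisor map outside `S` is the `S`-class group. -/
noncomputable def clSEquiv :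
    (DivOut S ⧸ (divOut S : Kˣ →* DivOut S).range) ≃* ClassGroup (𝓞 K) ⧸ classSubgroup S :=
  (QuotientGroup.quotientMulEquivOfEq (ker_classOut S).symm).trans
    (QuotientGroup.quotientKerEquivOfSurjective _ (classOut_surjective S))

omit [NumberField K] in
lemma divOut_torsionFree {n : ℕ} (hn : n ≠ 0) (d : DivOut S) (hd : d ^ n = 1) : d = 1 := by
  apply Multiplicative.toAdd.injective
  have h := congrArg Multiplicative.toAdd hd
  rw [toAdd_pow, toAdd_one] at h
  exact (smul_eq_zero_iff_right hn).mp h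

/-- The `S`-Selmer group `{x | ∀ v ∉ S, n ∣ ord v x}`. -/
def selS (n : ℕ) : Subgroup Kˣ where
  carrier := {x | ∀ v ∉ S, (n : ℤ) ∣ ord v x}
  one_mem' v _ := by
    rw [ord_one]
    exact dvd_zero _
  mul_mem' hx hy v hv := by
    rw [ord_mul]
    exact dvd_add (hx v hv) (hy v hv)
  inv_mem' hx v hv := by
    rw [ord_inv, dvd_neg]
    exact hx v hv

lemma mem_selS (n : ℕ) (x : Kˣ) : x ∈ selS S n ↔ ∀ v ∉ S, (n : ℤ) ∣ ord v x := Iff.rfl

lemma selSubgroup_divOut (n : ℕ) :
    AbCount.selSubgroup (divOut S : Kˣ →* DivOut S) n = selS S n := by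
  ext x
  rw [AbCount.mem_selSubgroup, mem_selS]
  constructor
  · rintro ⟨D, hD⟩ v hv
    have h := DFunLike.congr_fun (congrArg Multiplicative.toAdd hD) ⟨v, hv⟩
    rw [divOut_apply] at h
    rw [← h]
    exact ⟨D.toAdd ⟨v, hv⟩, by simp⟩
  · intro h
    refine ⟨Multiplicative.ofAdd
      ((divOut S x).toAdd.mapRange (fun a : ℤ => a / n) (Int.zero_ediv _)), ?_⟩
    apply Multiplicative.toAdd.injective
    ext v
    rw [toAdd_pow, toAdd_ofAdd, Finsupp.smul_apply, Finsupp.mapRange_apply, divOut_apply,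
      nsmul_eq_mul]
    exact Int.mul_ediv_cancel' (h v v.2)

/-- `|V_S / K^{×n}| = |U_S / U_S^n| * |Cl_S[n]|`. -/
theorem relIndex_selS {n : ℕ} (hn : n ≠ 0) :
    (powMonoidHom n : Kˣ →* Kˣ).range.relIndex (selS S n) =
      (powMonoidHom n : S.unit K →* S.unit K).range.index *
        Nat.card (powMonoidHom n : (ClassGroup (𝓞 K) ⧸ classSubgroup S) →*
          (ClassGroup (𝓞 K) ⧸ classSubgroup S)).ker := by
  rw [← selSubgroup_divOut S n, AbCount.relIndex_selSubgroup _ _ (divOut_torsionFree S hn),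
    AbCount.card_ker_pow_congr (clSEquiv S), ker_divOut]

/-- for the finite group `Cl_S`: `|Cl_S[n]| = |Cl_S / n|`. -/
lemma card_ker_pow_clS (n : ℕ) :
    Nat.card (powMonoidHom n : (ClassGroup (𝓞 K) ⧸ classSubgroup S) →*
          (ClassGroup (𝓞 K) ⧸ classSubgroup S)).ker =
    (powMonoidHom n : (ClassGroup (𝓞 K) ⧸ classSubgroup S) →*
          (ClassGroup (𝓞 K) ⧸ classSubgroup S)).range.index :=
  (AbCount.index_range_pow_of_finite n).symm

end SClass

section Trivial

variable {K : Type*} [Field K] [NumberField K]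

/-- `Cl_S = 1`: every divisor is principal outside `S`. -/
def ClTrivial (S : Set (HeightOneSpectrum (𝓞 K))) : Prop := classSubgroup S = ⊤

lemma ClTrivial.mono {S T : Set (HeightOneSpectrum (𝓞 K))} (hST : S ⊆ T) (h : ClTrivial S) :
    ClTrivial T := by
  rw [ClTrivial, eq_top_iff] at h ⊢
  exact h.trans (Subgroup.closure_mono (Set.image_mono hST))

lemma ClTrivial.exists_ord {S : Set (HeightOneSpectrum (𝓞 K))} (h : ClTrivial S)
    (D : HeightOneSpectrum (𝓞 K) →₀ ℤ) : ∃ x : Kˣ, ∀ v ∉ S, ord v x = D v := by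
  have h1 : classOut S (Multiplicative.ofAdd (D.subtypeDomain (· ∉ S))) = 1 := by
    rw [classOut_eq S _ D fun v => rfl, QuotientGroup.eq_one_iff, h]
    trivial
  rw [classOut_eq_one_iff] at h1
  obtain ⟨x, hx⟩ := h1
  exact ⟨x, fun v hv => DFunLike.congr_fun (congrArg Multiplicative.toAdd hx) ⟨v, hv⟩⟩

lemma clTrivial_of_exists_ord {S : Set (HeightOneSpectrum (𝓞 K))}
    (h : ∀ D : HeightOneSpectrum (𝓞 K) →₀ ℤ, ∃ x : Kˣ, ∀ v ∉ S, ord v x = D v) :
    ClTrivial S := by
  rw [ClTrivial, eq_top_iff]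
  intro c _
  obtain ⟨D, rfl⟩ := classOf_surjective c
  obtain ⟨x, hx⟩ := h D.toAdd
  rw [mem_classSubgroup_iff]
  refine ⟨D.toAdd - div x, fun v hv => ?_, ?_⟩
  · rw [Finsupp.sub_apply, div_apply, hx v hv, sub_self]
  · rw [ofAdd_sub, map_div, (classOf_eq_one_iff (Multiplicative.ofAdd (div x))).mpr ⟨x, rfl⟩]
    exact _root_.div_one _

/-- Any finite set of primes is contained in a finite set `S` with `Cl_S = 1`. -/
theorem exists_clTrivial (S₀ : Finset (HeightOneSpectrum (𝓞 K))) :
    ∃ S : Finset (HeightOneSpectrum (𝓞 K)), S₀ ⊆ S ∧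
      ClTrivial (S : Set (HeightOneSpectrum (𝓞 K))) := by
  classical
  choose D hD using classOf_surjective (K := K)
  refine ⟨S₀ ∪ Finset.univ.biUnion fun c => (D c).toAdd.support, Finset.subset_union_left, ?_⟩
  rw [ClTrivial, eq_top_iff]
  intro c _
  rw [mem_classSubgroup_iff]
  refine ⟨(D c).toAdd, fun v hv => ?_, hD c⟩
  by_contra hne
  apply hv
  rw [Finset.mem_coe, Finset.mem_union, Finset.mem_biUnion]
  exact Or.inr ⟨c, Finset.mem_univ _, Finsupp.mem_support_iff.mpr hne⟩

/-- If `Cl_S = 1`, then an element whose valuations outside `S` are divisible by `n` is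
an `S`-unit times an `n`-th power. -/
theorem ClTrivial.exists_mul_pow {S : Set (HeightOneSpectrum (𝓞 K))} (h : ClTrivial S)
    {n : ℕ} {x : Kˣ} (hx : x ∈ selS S n) :
    ∃ u ∈ S.unit K, ∃ y : Kˣ, x = u * y ^ n := by
  rw [← selSubgroup_divOut S n, AbCount.mem_selSubgroup] at hx
  obtain ⟨d, hd⟩ := hx
  obtain ⟨y, hy⟩ := (classOut_eq_one_iff S d).mp (by
    obtain ⟨c, hc⟩ := QuotientGroup.mk_surjective (classOut S d)
    rw [← hc, QuotientGroup.eq_one_iff, h]
    trivial)
  refine ⟨x * (y ^ n)⁻¹, ?_, y, by group⟩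
  rw [← ker_divOut, MonoidHom.mem_ker, map_mul, map_inv, map_pow, hy, hd, mul_inv_cancel]

end Trivial

end Fermat.Agent.CFT.SUnits
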