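import Fermat.Agent.CFT.SClass
import Mathlib.NumberTheory.RamificationInertia.Valuation
import Mathlib.NumberTheory.RamificationInertia.Galois
import Mathlib.NumberTheory.NumberField.Basic

/-!
# S-units in extensions of number fields
-/

set_option autoImplicit false

namespace Fermat.Agent.CFT.SUnits

open IsDedekindDomain NumberField WithZero
open scoped nonZeroDivisors Pointwise

section Under

variable (K : Type*) {L : Type*} [Field K] [NumberField K] [Field L] [NumberField L] [Algebra K L]

/-- The prime of `K` below a prime of `L`. -/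
noncomputable def under (w : HeightOneSpectrum (𝓞 L)) : HeightOneSpectrum (𝓞 K) where
  asIdeal := w.asIdeal.under (𝓞 K)
  isPrime := inferInstance
  ne_bot := Ideal.under_ne_bot (A := 𝓞 K) w.ne_bot

omit [NumberField K] [NumberField L] in
lemma under_asIdeal (w : HeightOneSpectrum (𝓞 L)) :
    (under K w).asIdeal = w.asIdeal.under (𝓞 K) := rfl

instance liesOver_under (w : HeightOneSpectrum (𝓞 L)) :
    w.asIdeal.LiesOver (under K w).asIdeal := ⟨rfl⟩

omit [NumberField K] [NumberField L] in
lemma under_eq_iff (w : HeightOneSpectrum (𝓞 L)) (v : HeightOneSpectrum (𝓞 K)) :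
    under K w = v ↔ w.asIdeal.LiesOver v.asIdeal := by
  constructor
  · rintro rfl
    infer_instance
  · intro h
    exact HeightOneSpectrum.ext h.over.symm

/-- The ramification index of a prime of `L` over `K`. -/
noncomputable def ramIdx (w : HeightOneSpectrum (𝓞 L)) : ℕ :=
  (under K w).asIdeal.ramificationIdx' w.asIdeal

omit [NumberField K] in
lemma ramIdx_ne_zero (w : HeightOneSpectrum (𝓞 L)) : ramIdx K w ≠ 0 :=
  Ideal.IsDedekindDomain.ramificationIdx'_ne_zero_of_liesOver w.asIdeal (under K w).ne_bot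

variable {K} in
lemma ord_algebraMap (w : HeightOneSpectrum (𝓞 L)) (x : Kˣ) :
    ord w (Units.map (algebraMap K L : K →* L) x) = ramIdx K w * ord (under K w) x := by
  have h := HeightOneSpectrum.valuation_liesOver L (under K w) w (x : K)
  rw [valuation_eq_exp_neg_ord] at h
  have h2 : w.valuation L (algebraMap K L x) =
      w.valuation L ((Units.map (algebraMap K L : K →* L) x : Lˣ) : L) := rfl
  rw [h2, valuation_eq_exp_neg_ord, ← WithZero.exp_nsmul, WithZero.exp_inj] at h
  have h3 : (ramIdx K w) • (- ord (under K w) x) =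
      - ord w (Units.map (algebraMap K L : K →* L) x) := h
  rw [nsmul_eq_mul] at h3
  linarith


end Under

section Above

variable {K : Type*} (L : Type*) [Field K] [NumberField K] [Field L] [NumberField L] [Algebra K L]

lemma finite_above (v : HeightOneSpectrum (𝓞 K)) :
    {w : HeightOneSpectrum (𝓞 L) | under K w = v}.Finite := by
  have h : (v.asIdeal.primesOver (𝓞 L)).Finite :=
    IsDedekindDomain.primesOver_finite v.asIdeal (𝓞 L)
  refine Set.Finite.of_injOn (f := HeightOneSpectrum.asIdeal) (t := v.asIdeal.primesOver (𝓞 L))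
    ?_ ?_ h
  · intro w hw
    exact ⟨w.isPrime, (under_eq_iff K w v).mp hw⟩
  · intro w _ w' _ h
    exact HeightOneSpectrum.ext h

/-- The primes of `L` above a prime of `K`. -/
noncomputable def above (v : HeightOneSpectrum (𝓞 K)) : Finset (HeightOneSpectrum (𝓞 L)) :=
  (finite_above L v).toFinset

variable {L} in
@[simp] lemma mem_above (v : HeightOneSpectrum (𝓞 K)) (w : HeightOneSpectrum (𝓞 L)) :
    w ∈ above L v ↔ under K w = v := by
  rw [above, Set.Finite.mem_toFinset]
  rfl

lemma card_above_eq_ncard (v : HeightOneSpectrum (𝓞 K)) :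
    (above L v).card = (v.asIdeal.primesOver (𝓞 L)).ncard := by
  rw [← Set.ncard_coe_finset]
  refine Set.ncard_congr (fun w _ => w.asIdeal) ?_ ?_ ?_
  · intro w hw
    rw [Finset.mem_coe, mem_above] at hw
    exact ⟨w.isPrime, (under_eq_iff K w v).mp hw⟩
  · intro w w' _ _ h
    exact HeightOneSpectrum.ext h
  · intro P hP
    have hP0 : P ≠ ⊥ := by
      have := hP.2
      exact Ideal.ne_bot_of_liesOver_of_ne_bot v.ne_bot P
    refine ⟨⟨P, hP.1, hP0⟩, ?_, rfl⟩
    rw [Finset.mem_coe, mem_above, under_eq_iff]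
    exact hP.2

lemma above_nonempty (v : HeightOneSpectrum (𝓞 K)) : (above L v).Nonempty := by
  obtain ⟨P, hP⟩ := (inferInstance : Nonempty (v.asIdeal.primesOver (𝓞 L)))
  have hP0 : P ≠ ⊥ := by
    have := hP.2
    exact Ideal.ne_bot_of_liesOver_of_ne_bot v.ne_bot P
  refine ⟨⟨P, hP.1, hP0⟩, ?_⟩
  rw [mem_above, under_eq_iff]
  exact hP.2

lemma under_surjective : Function.Surjective (under K : HeightOneSpectrum (𝓞 L) → _) := by
  intro v
  obtain ⟨w, hw⟩ := above_nonempty L v
  exact ⟨w, (mem_above v w).mp hw⟩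

/-- The set of primes of `L` above a finite set of primes of `K`. -/
noncomputable def aboveS (S : Finset (HeightOneSpectrum (𝓞 K))) :
    Finset (HeightOneSpectrum (𝓞 L)) := by
  classical
  exact S.biUnion (above L)

variable {L} in
@[simp] lemma mem_aboveS (S : Finset (HeightOneSpectrum (𝓞 K))) (w : HeightOneSpectrum (𝓞 L)) :
    w ∈ aboveS L S ↔ under K w ∈ S := by
  classical
  rw [aboveS, Finset.mem_biUnion]
  constructor
  · rintro ⟨v, hv, hw⟩
    rwa [(mem_above v w).mp hw]
  · intro h
    exact ⟨_, h, (mem_above _ w).mpr rfl⟩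

lemma coe_aboveS (S : Finset (HeightOneSpectrum (𝓞 K))) :
    (aboveS L S : Set (HeightOneSpectrum (𝓞 L))) = under K ⁻¹' (S : Set _) := by
  ext w
  rw [Finset.mem_coe, mem_aboveS, Set.mem_preimage, Finset.mem_coe]

lemma card_aboveS (S : Finset (HeightOneSpectrum (𝓞 K))) :
    (aboveS L S).card = ∑ v ∈ S, (above L v).card := by
  classical
  rw [aboveS, Finset.card_biUnion]
  intro v _ v' _ hvv'
  rw [Function.onFun, Finset.disjoint_left]
  intro w hw hw'
  rw [mem_above] at hw hw'
  exact hvv' (hw.symm.trans hw')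

variable {L} in
lemma map_mem_unit_iff (S : Set (HeightOneSpectrum (𝓞 K))) (x : Kˣ) :
    Units.map (algebraMap K L : K →* L) x ∈
      (under K ⁻¹' S : Set (HeightOneSpectrum (𝓞 L))).unit L ↔ x ∈ S.unit K := by
  rw [mem_unit_iff', mem_unit_iff']
  constructor
  · intro h v hv
    obtain ⟨w, rfl⟩ := under_surjective L v
    have := h w hv
    rw [ord_algebraMap] at this
    rcases mul_eq_zero.mp this with h0 | h0
    · exact absurd (by exact_mod_cast h0) (ramIdx_ne_zero K w)
    · exact h0
  · intro h w hw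
    rw [ord_algebraMap, h _ hw, mul_zero]

end Above

section Galois

variable {K L : Type*} [Field K] [NumberField K] [Field L] [NumberField L] [Algebra K L]

omit [NumberField K] [NumberField L] in
lemma coe_smul_int (σ : Gal(L/K)) (x : 𝓞 L) : algebraMap (𝓞 L) L (σ • x) = σ (algebraMap (𝓞 L) L x) :=
  algebraMap.smul' σ x L

instance : SMulCommClass Gal(L/K) (𝓞 K) (𝓞 L) where
  smul_comm σ a x := by
    apply RingOfIntegers.coe_injective
    rw [coe_smul_int, Algebra.smul_def, Algebra.smul_def, map_mul, map_mul, map_mul, coe_smul_int,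
      ← IsScalarTower.algebraMap_apply (𝓞 K) (𝓞 L) L, IsScalarTower.algebraMap_apply (𝓞 K) K L,
      AlgEquiv.commutes]

/-- The Galois action on the primes of `L`. -/
noncomputable instance : SMul Gal(L/K) (HeightOneSpectrum (𝓞 L)) where
  smul σ w := 
    { asIdeal := σ • w.asIdeal
      isPrime := inferInstance
      ne_bot := fun h => w.ne_bot (by
        have := congrArg (fun I => σ⁻¹ • I) h
        simpa using this) }

omit [NumberField K] [NumberField L] in
lemma smul_asIdeal (σ : Gal(L/K)) (w : HeightOneSpectrum (𝓞 L)) :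
    (σ • w).asIdeal = σ • w.asIdeal := rfl

noncomputable instance : MulAction Gal(L/K) (HeightOneSpectrum (𝓞 L)) where
  one_smul _ := HeightOneSpectrum.ext (one_smul _ _)
  mul_smul _ _ _ := HeightOneSpectrum.ext (mul_smul _ _ _)

omit [NumberField K] [NumberField L] in
lemma under_smul (σ : Gal(L/K)) (w : HeightOneSpectrum (𝓞 L)) : under K (σ • w) = under K w := by
  apply HeightOneSpectrum.ext
  rw [under_asIdeal, under_asIdeal, smul_asIdeal, Ideal.under_smul]

omit [NumberField K] in
lemma intValuation_smul (σ : Gal(L/K)) (w : HeightOneSpectrum (𝓞 L)) (r : 𝓞 L) :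
    (σ • w).intValuation (σ • r) = w.intValuation r := by
  have key : ∀ (n : ℕ), (σ • w).intValuation (σ • r) ≤ exp (-(n : ℤ)) ↔
      w.intValuation r ≤ exp (-(n : ℤ)) := by
    intro n
    rw [HeightOneSpectrum.intValuation_le_pow_iff_mem,
      HeightOneSpectrum.intValuation_le_pow_iff_mem, smul_asIdeal, ← smul_pow',
      Ideal.smul_mem_pointwise_smul_iff]
  by_cases hr : r = 0
  · subst hr
    rw [smul_zero, map_zero, map_zero]
  · have hσr : σ • r ≠ 0 := by
      intro h
      exact hr ((smul_eq_zero_iff_eq σ).mp h)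
    rw [HeightOneSpectrum.intValuation_eq_exp_neg_multiplicity _ hσr,
      HeightOneSpectrum.intValuation_eq_exp_neg_multiplicity _ hr] at key ⊢
    apply le_antisymm
    · exact (key _).mpr le_rfl
    · exact (key _).mp le_rfl

omit [NumberField K] in
lemma valuation_smul (σ : Gal(L/K)) (w : HeightOneSpectrum (𝓞 L)) (x : L) :
    (σ • w).valuation L (σ x) = w.valuation L x := by
  obtain ⟨r, s, hs, rfl⟩ := IsFractionRing.div_surjective (A := 𝓞 L) x
  rw [map_div₀, map_div₀, map_div₀, ← coe_smul_int, ← coe_smul_int,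
    HeightOneSpectrum.valuation_of_algebraMap, HeightOneSpectrum.valuation_of_algebraMap,
    HeightOneSpectrum.valuation_of_algebraMap, HeightOneSpectrum.valuation_of_algebraMap,
    intValuation_smul, intValuation_smul]

/-- The Galois action on `Lˣ`. -/
noncomputable abbrev galU (σ : Gal(L/K)) : Lˣ ≃* Lˣ := Units.mapEquiv σ.toMulEquiv

omit [NumberField K] [NumberField L] in
@[simp] lemma coe_galU (σ : Gal(L/K)) (x : Lˣ) : ((galU σ x : Lˣ) : L) = σ (x : L) := rfl

omit [NumberField K] in
lemma ord_smul (σ : Gal(L/K)) (w : HeightOneSpectrum (𝓞 L)) (x : Lˣ) :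
    ord (σ • w) (galU σ x) = ord w x := by
  have h := valuation_smul σ w (x : L)
  rw [← coe_galU, valuation_eq_exp_neg_ord, valuation_eq_exp_neg_ord, WithZero.exp_inj] at h
  linarith

omit [NumberField K] in
lemma ord_galU (σ : Gal(L/K)) (w : HeightOneSpectrum (𝓞 L)) (x : Lˣ) :
    ord w (galU σ x) = ord (σ⁻¹ • w) x := by
  rw [← ord_smul σ (σ⁻¹ • w), smul_inv_smul]

lemma galU_mem_unit (S : Set (HeightOneSpectrum (𝓞 K))) (σ : Gal(L/K)) {x : Lˣ}
    (hx : x ∈ (under K ⁻¹' S : Set (HeightOneSpectrum (𝓞 L))).unit L) :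
    galU σ x ∈ (under K ⁻¹' S : Set (HeightOneSpectrum (𝓞 L))).unit L := by
  rw [mem_unit_iff'] at hx ⊢
  intro w hw
  rw [ord_galU]
  apply hx
  rwa [Set.mem_preimage, under_smul, ← Set.mem_preimage]

/-- The Galois action on the `S`-units of `L`. -/
noncomputable def galS (S : Set (HeightOneSpectrum (𝓞 K))) (σ : Gal(L/K)) :
    (under K ⁻¹' S : Set (HeightOneSpectrum (𝓞 L))).unit L ≃*
      (under K ⁻¹' S : Set (HeightOneSpectrum (𝓞 L))).unit L where
  toFun x := ⟨galU σ x, galU_mem_unit S σ x.2⟩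
  invFun x := ⟨galU σ⁻¹ x, galU_mem_unit S σ⁻¹ x.2⟩
  left_inv x := by
    apply Subtype.ext
    apply Units.ext
    exact σ.symm_apply_apply _
  right_inv x := by
    apply Subtype.ext
    apply Units.ext
    exact σ.apply_symm_apply _
  map_mul' x y := by
    apply Subtype.ext
    exact map_mul (galU σ) _ _

@[simp] lemma coe_galS (S : Set (HeightOneSpectrum (𝓞 K))) (σ : Gal(L/K))
    (x : (under K ⁻¹' S : Set (HeightOneSpectrum (𝓞 L))).unit L) :
    ((galS S σ x : Lˣ)) = galU σ x := rfl

/-- The fixed elements of `Lˣ` come from `Kˣ`. -/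
lemma exists_of_fixed [IsGalois K L] {x : Lˣ} (hx : ∀ σ : Gal(L/K), galU σ x = x) :
    ∃ y : Kˣ, Units.map (algebraMap K L : K →* L) y = x := by
  have h : ∀ σ : Gal(L/K), σ (x : L) = x := fun σ => congrArg Units.val (hx σ)
  obtain ⟨y, hy⟩ := (IsGalois.mem_range_algebraMap_iff_fixed (F := K) (x : L)).mpr h
  have hy0 : y ≠ 0 := by
    rintro rfl
    rw [map_zero] at hy
    exact x.ne_zero hy.symm
  exact ⟨Units.mk0 y hy0, Units.ext hy⟩

/-- The fixed `S`-units of `L` are the `S`-units of `K`. -/
lemma exists_of_fixed_unit [IsGalois K L] (S : Set (HeightOneSpectrum (𝓞 K))) {x : Lˣ}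
    (hxS : x ∈ (under K ⁻¹' S : Set (HeightOneSpectrum (𝓞 L))).unit L)
    (hx : ∀ σ : Gal(L/K), galU σ x = x) :
    ∃ y ∈ S.unit K, Units.map (algebraMap K L : K →* L) y = x := by
  obtain ⟨y, rfl⟩ := exists_of_fixed hx
  exact ⟨y, (map_mem_unit_iff S y).mp hxS, rfl⟩

end Galois

end Fermat.Agent.CFT.SUnits
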